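/-
Programme MS (S12, Mazur), chapter TATE, file InjN3 (helper3): **`X` is injective modulo `±` on the
`n`-torsion parameters** `uT D s = ζ^a q'^b` of the Tate curve, for an arbitrary odd level `n` with
`‖n‖ = 1` (generalising `MZ/MOD/TateInj4.XK_inj` from a prime `p` to any odd `n`): for `s, t ≠ 0`,
`XK (uT D s) q = XK (uT D t) q → t = s ∨ t = -s`.
-/
import Mathlib
import Fermat.Agent.MZ.MOD.TateInj4
import Fermat.Agent.MS.TATE.TorsN3

set_option autoImplicit false
set_option linter.unusedSectionVars false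
set_option linter.unusedVariables false

open PowerSeries

namespace Fermat.Agent.MS.TATE.InjN3

open Fermat.Agent.MZ.MOD
open TateFormal4 PSEval4 Regroup4 TateEval4 TateD4 TateLambert4 TateCurve4 TateSym4 TateNorm4
open TateInj4 (norm_XK_mid XK_ne_of_mid norm_XK_unit XK_ne_of_unit pow_max)
open TorsN3

variable {K : Type*} [NormedField K] [IsUltrametricDist K] [CompleteSpace K]

variable [CharZero K] {n : ℕ} [hn : NeZero n] (D : TorsDataN K n)

theorem norm_q_div_uT (s : ZMod n × ZMod n) :
    ‖D.q‖ / ‖uT D s‖ = ‖D.q'‖ ^ (n - s.2.val) := by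
  have hpos := norm_q'_pos D
  rw [norm_uT, ← norm_q'_pow, div_eq_iff (pow_ne_zero _ hpos.ne'), ← pow_add,
    Nat.sub_add_cancel (val_lt s.2).le]

theorem Mid_uT (s : ZMod n × ZMod n) :
    Mid (uT D s) D.q = ‖D.q'‖ ^ (min s.2.val (n - s.2.val)) := by
  unfold Mid
  rw [norm_q_div_uT, norm_uT, pow_max _ (norm_q'_pos D) (norm_q'_lt_one D)]

theorem pow_q'_inj {m k : ℕ} (h : ‖D.q'‖ ^ m = ‖D.q'‖ ^ k) : m = k :=
  pow_right_injective₀ (norm_q'_pos D) (norm_q'_lt_one D).ne h

theorem val_pos_of_ne {a : ZMod n} (ha : a ≠ 0) : 0 < a.val :=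
  Nat.pos_of_ne_zero fun h0 => ha ((ZMod.val_eq_zero a).1 h0)

theorem not_dvd_val {a : ZMod n} (ha : a ≠ 0) : ¬ n ∣ a.val := fun h =>
  absurd (Nat.le_of_dvd (val_pos_of_ne ha) h) (not_le.2 (val_lt a))

theorem natCast_val (a : ZMod n) : ((a.val : ℕ) : ZMod n) = a :=
  ZMod.natCast_zmod_val a

theorem not_dvd_add {a a' : ZMod n} (h : a + a' ≠ 0) : ¬ n ∣ a.val + a'.val := by
  intro hd
  apply h
  have := (ZMod.natCast_eq_zero_iff (a.val + a'.val) n).2 hd
  rwa [Nat.cast_add, natCast_val, natCast_val] at this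

theorem two_le_of_ne_zero {s : ZMod n × ZMod n} (hs : s ≠ 0) : 2 ≤ n := by
  by_contra h
  have h1 : n = 1 := by
    have := n_pos (n := n)
    omega
  subst h1
  exact hs (Subsingleton.elim _ _)

theorem norm_one_sub_inv_root (hn2 : 2 ≤ n) (hnK : ‖(n : K)‖ = 1) (k : ℕ) (hk : ¬ n ∣ k) :
    ‖1 - (D.ζ ^ k)⁻¹‖ = 1 := by
  have hz : D.ζ ^ k ≠ 0 := pow_ne_zero _ (ζ_ne_zero D)
  have e : 1 - (D.ζ ^ k)⁻¹ = -((D.ζ ^ k)⁻¹ * (1 - D.ζ ^ k)) := by
    field_simp
    ring
  rw [e, norm_neg, norm_mul, norm_inv, norm_pow, norm_ζ, one_pow, inv_one, one_mul,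
    norm_one_sub_root D.ζ n hn2 D.hζ hnK k hk]

/-- **`X` is injective modulo `±` on the torsion parameters** (odd level `n`, `‖n‖ = 1`). -/
theorem XK_inj (hodd : Odd n) (hnK : ‖(n : K)‖ = 1) (s t : ZMod n × ZMod n) (hs : s ≠ 0)
    (ht : t ≠ 0) (h : XK (uT D s) D.q = XK (uT D t) D.q) : t = s ∨ t = -s := by
  have hp2 : 2 ≤ n := two_le_of_ne_zero hs
  have hoddp : Odd n := hodd
  have hπ0 := norm_q'_pos D
  have hπ1 := norm_q'_lt_one D
  obtain ⟨a, b⟩ := s
  obtain ⟨a', b'⟩ := t
  by_cases hb : b = 0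
  · subst hb
    have ha : a ≠ 0 := fun h0 => hs (by rw [h0]; rfl)
    have hu : ‖uT D (a, 0)‖ = 1 := norm_uT_eq_one D (a, 0) rfl
    have hu_eq : uT D (a, 0) = D.ζ ^ a.val := by
      rw [uT]
      simp
    have hu1 : ‖1 - uT D (a, 0)‖ = 1 := by
      rw [hu_eq]
      exact norm_one_sub_root D.ζ n hp2 D.hζ hnK _ (not_dvd_val ha)
    by_cases hb' : b' = 0
    · subst hb'
      have ha' : a' ≠ 0 := fun h0 => ht (by rw [h0]; rfl)
      have hv : ‖uT D (a', 0)‖ = 1 := norm_uT_eq_one D (a', 0) rfl
      have hv_eq : uT D (a', 0) = D.ζ ^ a'.val := by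
        rw [uT]
        simp
      have hv1 : ‖1 - uT D (a', 0)‖ = 1 := by
        rw [hv_eq]
        exact norm_one_sub_root D.ζ n hp2 D.hζ hnK _ (not_dvd_val ha')
      by_contra hcon
      push Not at hcon
      have hne1 : a' ≠ a := fun h0 => hcon.1 (by rw [h0])
      have hne2 : a + a' ≠ 0 := by
        intro h0
        apply hcon.2
        rw [Prod.neg_mk, neg_zero, Prod.mk.injEq]
        exact ⟨by linear_combination h0, rfl⟩
      have huv : ‖uT D (a, 0) - uT D (a', 0)‖ = 1 := by
        rw [hu_eq, hv_eq]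
        refine norm_root_sub_root D.ζ n hp2 D.hζ hnK _ _ ?_
        rw [natCast_val, natCast_val]
        exact fun h0 => hne1 h0.symm
      have huv' : ‖1 - uT D (a, 0) * uT D (a', 0)‖ = 1 := by
        rw [hu_eq, hv_eq, ← pow_add]
        exact norm_one_sub_root D.ζ n hp2 D.hζ hnK _ (not_dvd_add hne2)
      exact XK_ne_of_unit _ _ D.q hu hv hu1 hv1 huv huv' D.hq1 h
    · exfalso
      have h1 := norm_XK_unit (uT D (a, 0)) D.q hu hu1 D.hq1
      have h2 := norm_XK_le_mid (uT D (a', b')) D.q (uT_ne_zero D _)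
        (norm_uT_lt_one D (a', b') hb') (norm_q_lt_norm_uT D _)
      have h3 := Mid_lt_one (uT D (a', b')) D.q (uT_ne_zero D _)
        (norm_uT_lt_one D (a', b') hb') (norm_q_lt_norm_uT D _)
      rw [← h, h1] at h2
      linarith
  · by_cases hb' : b' = 0
    · exfalso
      subst hb'
      have ha' : a' ≠ 0 := fun h0 => ht (by rw [h0]; rfl)
      have hv : ‖uT D (a', 0)‖ = 1 := norm_uT_eq_one D (a', 0) rfl
      have hv_eq : uT D (a', 0) = D.ζ ^ a'.val := by
        rw [uT]
        simp
      have hv1 : ‖1 - uT D (a', 0)‖ = 1 := by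
        rw [hv_eq]
        exact norm_one_sub_root D.ζ n hp2 D.hζ hnK _ (not_dvd_val ha')
      have h1 := norm_XK_unit (uT D (a', 0)) D.q hv hv1 D.hq1
      have h2 := norm_XK_le_mid (uT D (a, b)) D.q (uT_ne_zero D _)
        (norm_uT_lt_one D (a, b) hb) (norm_q_lt_norm_uT D _)
      have h3 := Mid_lt_one (uT D (a, b)) D.q (uT_ne_zero D _)
        (norm_uT_lt_one D (a, b) hb) (norm_q_lt_norm_uT D _)
      rw [h, h1] at h2
      linarith
    · -- both in the open annulus
      have hbv : 0 < b.val := val_pos_of_ne hb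
      have hbv' : 0 < b'.val := val_pos_of_ne hb'
      have hbl : b.val < n := val_lt b
      have hbl' : b'.val < n := val_lt b'
      have hne2b : b.val ≠ n - b.val := by
        obtain ⟨m, hm⟩ := hoddp
        omega
      have hne2b' : b'.val ≠ n - b'.val := by
        obtain ⟨m, hm⟩ := hoddp
        omega
      have hu0 := uT_ne_zero D (a, b)
      have hv0 := uT_ne_zero D (a', b')
      have hu := norm_uT_lt_one D (a, b) hb
      have hv := norm_uT_lt_one D (a', b') hb'
      have hqu := norm_q_lt_norm_uT D (a, b)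
      have hqv := norm_q_lt_norm_uT D (a', b')
      have hnu : ‖uT D (a, b)‖ ≠ ‖D.q‖ / ‖uT D (a, b)‖ := by
        rw [norm_q_div_uT, norm_uT]
        exact fun h0 => hne2b (pow_q'_inj D h0)
      have hnv : ‖uT D (a', b')‖ ≠ ‖D.q‖ / ‖uT D (a', b')‖ := by
        rw [norm_q_div_uT, norm_uT]
        exact fun h0 => hne2b' (pow_q'_inj D h0)
      have hXu := norm_XK_mid (uT D (a, b)) D.q hu0 hu hqu hnu
      have hXv := norm_XK_mid (uT D (a', b')) D.q hv0 hv hqv hnv
      have hM : Mid (uT D (a, b)) D.q = Mid (uT D (a', b')) D.q := by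
        rw [← hXu, ← hXv, h]
      have hmin : min b.val (n - b.val) = min b'.val (n - b'.val) := by
        rw [Mid_uT, Mid_uT] at hM
        exact pow_q'_inj D hM
      have hcases : b'.val = b.val ∨ b'.val = n - b.val := by
        rcases le_total b.val (n - b.val) with h1 | h1 <;>
          rcases le_total b'.val (n - b'.val) with h2 | h2
        · rw [min_eq_left h1, min_eq_left h2] at hmin
          exact Or.inl hmin.symm
        · rw [min_eq_left h1, min_eq_right h2] at hmin
          right
          omega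
        · rw [min_eq_right h1, min_eq_left h2] at hmin
          right
          omega
        · rw [min_eq_right h1, min_eq_right h2] at hmin
          left
          omega
      by_contra hcon
      push Not at hcon
      rcases hcases with hc | hc
      · -- same `b`
        have hbb : b' = b := ZMod.val_injective n hc
        subst hbb
        have hne1 : a' ≠ a := fun h0 => hcon.1 (by rw [h0])
        have hdiff : uT D (a, b') - uT D (a', b') =
            (D.ζ ^ a.val - D.ζ ^ a'.val) * D.q' ^ b'.val := by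
          rw [uT, uT]
          ring
        have hnd : ‖uT D (a, b') - uT D (a', b')‖ = ‖D.q'‖ ^ b'.val := by
          rw [hdiff, norm_mul, norm_pow, norm_root_sub_root D.ζ n hp2 D.hζ hnK _ _ (by
            rw [natCast_val, natCast_val]
            exact fun h0 => hne1 h0.symm), one_mul]
        have hnq : ‖D.q / (uT D (a, b') * uT D (a', b'))‖ =
            ‖D.q'‖ ^ n / (‖D.q'‖ ^ b'.val * ‖D.q'‖ ^ b'.val) := by
          rw [norm_div, norm_mul, norm_uT, norm_uT, norm_q'_pow]
        refine XK_ne_of_mid _ _ D.q hu0 hv0 hu hv hqu hqv hM ?_ h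
        rw [norm_mul, hnd, Mid_uT]
        rcases lt_or_gt_of_ne hne2b' with hlt | hgt
        · -- `2b < n`
          have hsmall : ‖D.q / (uT D (a, b') * uT D (a', b'))‖ < 1 := by
            rw [hnq, ← pow_add, div_lt_one (pow_pos hπ0 _)]
            exact pow_lt_pow_right_of_lt_one₀ hπ0 hπ1 (by omega)
          rw [norm_one_sub_of_lt hsmall, mul_one, min_eq_left hlt.le]
        · -- `2b > n`
          have hbig : 1 < ‖D.q / (uT D (a, b') * uT D (a', b'))‖ := by
            rw [hnq, ← pow_add, one_lt_div (pow_pos hπ0 _)]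
            exact pow_lt_pow_right_of_lt_one₀ hπ0 hπ1 (by omega)
          have e : (1 : K) - D.q / (uT D (a, b') * uT D (a', b')) =
              -(D.q / (uT D (a, b') * uT D (a', b'))) + 1 := by ring
          have hlt1 : ‖(1 : K)‖ < ‖-(D.q / (uT D (a, b') * uT D (a', b')))‖ := by
            rw [norm_neg, norm_one]
            exact hbig
          rw [e, norm_add_eq_left hlt1, norm_neg, hnq, min_eq_right hgt.le]
          have hπb : ‖D.q'‖ ^ b'.val ≠ 0 := (pow_pos hπ0 _).ne'
          have hsplit : ‖D.q'‖ ^ n = ‖D.q'‖ ^ (n - b'.val) * ‖D.q'‖ ^ b'.val := by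
            rw [← pow_add, Nat.sub_add_cancel hbl'.le]
          rw [hsplit]
          field_simp
      · -- `b' = n - b`
        have hne_norm : ‖uT D (a, b)‖ ≠ ‖uT D (a', b')‖ := by
          rw [norm_uT, norm_uT]
          intro h0
          have := pow_q'_inj D h0
          simp only at this
          omega
        have hprod : uT D (a, b) * uT D (a', b') = D.ζ ^ (a.val + a'.val) * D.q := by
          have hsum : b.val + b'.val = n := by omega
          have e : D.q' ^ b.val * D.q' ^ b'.val = D.q := by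
            rw [← pow_add, hsum, D.hq']
          rw [uT, uT]
          simp only
          rw [pow_add]
          linear_combination (D.ζ ^ a.val * D.ζ ^ a'.val) * e
        by_cases hsum0 : a + a' = 0
        · apply hcon.2
          rw [Prod.neg_mk, Prod.mk.injEq]
          refine ⟨by linear_combination hsum0, ?_⟩
          have hb'val : ((b'.val : ℕ) : ZMod n) = -b := by
            rw [hc, Nat.cast_sub hbl.le, CharP.cast_eq_zero, zero_sub, natCast_val]
          rw [natCast_val] at hb'val
          exact hb'val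
        · have hζn : D.ζ ^ (a.val + a'.val) ≠ 0 := pow_ne_zero _ (ζ_ne_zero D)
          have hquv : D.q / (uT D (a, b) * uT D (a', b')) = (D.ζ ^ (a.val + a'.val))⁻¹ := by
            rw [hprod]
            field_simp [D.hq0]
          refine XK_ne_of_mid _ _ D.q hu0 hv0 hu hv hqu hqv hM ?_ h
          rw [norm_mul, hquv, norm_one_sub_inv_root D hp2 hnK _ (not_dvd_add hsum0), mul_one,
            sub_eq_add_neg, IsUltrametricDist.norm_add_eq_max_of_norm_ne_norm (by
              rwa [norm_neg]), norm_neg]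
          unfold Mid
          rw [norm_q_div_uT, norm_uT, norm_uT]
          simp only
          rw [hc]

end Fermat.Agent.MS.TATE.InjN3
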