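/-
Programme MS (S12, Mazur), chapter TATE, file HomN3 (helper3): **the `n`-torsion parametrisation of
the Tate curve is an injective homomorphism onto the full `n`-torsion**, for an arbitrary level `n`
prime to `6` with `‖n‖ = 1` (generalising `MZ/MOD/TateHom3.tP_add` and
`MZ/MOD/TateLT4.exists_tP_of_torsion` from a prime `p > 3` to any such `n`, e.g. `n = p^k`):
`tP_add`, `tP_neg`, `tPHom`, `tP_injective`, `exists_tP_of_torsion`, and the equivalence
`tPEquiv : (ZMod n × ZMod n) ≃+ torsion subgroup`.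
-/
import Mathlib
import Fermat.Agent.MZ.MOD.TateHom3
import Fermat.Agent.MS.TATE.InjN3
import Fermat.Agent.DivPoly.CountFinal

set_option autoImplicit false
set_option linter.unusedSectionVars false
set_option linter.unusedVariables false
set_option linter.style.longLine false

noncomputable section

namespace Fermat.Agent.MS.TATE.HomN3

open Fermat.Agent.MZ.MOD
open Fermat.Agent.MZ.MOD.TateFormal4 Fermat.Agent.MZ.MOD.PSEval4 Fermat.Agent.MZ.MOD.TateEval4
  Fermat.Agent.MZ.MOD.TateCurve4 Fermat.Agent.MZ.MOD.TateSym4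
  Fermat.Agent.MZ.MOD.TateChord3
open Fermat.Agent.MZ.MOD.TateHom3 (Good nonsingular_of_good some_congr good_inv pt_inv good_div_q
  pt_div_q pt_add)
open TorsN3
open WeierstrassCurve.Affine

variable {K : Type*} [NormedField K] [IsUltrametricDist K] [CompleteSpace K] [CharZero K]

variable {n : ℕ} [hn : NeZero n] (D : TorsDataN K n)

theorem zeta_pow_val_add (a b : ZMod n) : D.ζ ^ (a + b).val = D.ζ ^ a.val * D.ζ ^ b.val := by
  rw [← pow_add, ZMod.val_add, ← pow_eq_pow_mod _ D.hζ.pow_eq_one]

/-- no carry in the second coordinate. -/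
theorem uT_mul_of_lt (s t : ZMod n × ZMod n) (h : s.2.val + t.2.val < n) :
    uT D s * uT D t = uT D (s + t) := by
  have h2 : (s + t).2.val = s.2.val + t.2.val := by
    rw [Prod.snd_add, ZMod.val_add, Nat.mod_eq_of_lt h]
  rw [uT, uT, uT, Prod.fst_add, zeta_pow_val_add, h2, pow_add]
  ring

/-- carry in the second coordinate. -/
theorem uT_mul_of_le (s t : ZMod n × ZMod n) (h : n ≤ s.2.val + t.2.val) :
    uT D s * uT D t = uT D (s + t) * D.q := by
  have hs := val_lt s.2
  have ht := val_lt t.2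
  have h2 : (s + t).2.val + n = s.2.val + t.2.val := by
    rw [Prod.snd_add, ZMod.val_add, Nat.mod_eq_sub_mod h, Nat.mod_eq_of_lt (by omega)]
    omega
  have h3 : D.q' ^ s.2.val * D.q' ^ t.2.val = D.q' ^ (s + t).2.val * D.q := by
    rw [← pow_add, ← h2, pow_add, D.hq']
  rw [uT, uT, uT, Prod.fst_add, zeta_pow_val_add]
  linear_combination (D.ζ ^ s.1.val * D.ζ ^ t.1.val) * h3

theorem good_uT (s : ZMod n × ZMod n) (hs : s ≠ 0) : Good D.q (uT D s) :=
  ⟨uT_ne_zero D s, uT_ne_one D s hs, rho_uT_mul_lt D s⟩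

theorem tP_eq (s : ZMod n × ZMod n) (hs : s ≠ 0) :
    tP D s = Point.some _ _ (nonsingular_of_good D.q D.hΔ (good_uT D s hs)) := tP_of_ne D s hs

theorem some_param_congr {u u' : K} (h : Good D.q u) (h' : Good D.q u') (e : u = u') :
    Point.some _ _ (nonsingular_of_good D.q D.hΔ h) =
      Point.some _ _ (nonsingular_of_good D.q D.hΔ h') := by
  subst e
  rfl

theorem val_neg_add (b : ZMod n) (hb : b ≠ 0) : b.val + (-b).val = n := by
  rw [ZMod.neg_val, if_neg hb]
  have := val_lt b
  omega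

/-- **negation**: `tP (-s) = -tP s`. -/
theorem tP_neg (s : ZMod n × ZMod n) : tP D (-s) = -tP D s := by
  by_cases hs : s = 0
  · subst hs
    rw [neg_zero, tP_zero]
    rfl
  have hns : -s ≠ 0 := neg_ne_zero.2 hs
  rw [tP_eq D s hs, tP_eq D (-s) hns, ← pt_inv D.q D.hΔ (good_uT D s hs)]
  by_cases h2 : s.2 = 0
  · -- `uT (-s) = (uT s)⁻¹`
    have h : uT D s * uT D (-s) = uT D (s + -s) := by
      apply uT_mul_of_lt
      rw [Prod.snd_neg, h2, neg_zero, ZMod.val_zero]
      exact n_pos
    rw [add_neg_cancel, uT_zero] at h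
    exact some_param_congr D (good_uT D (-s) hns) (good_inv D.q (good_uT D s hs))
      (eq_inv_of_mul_eq_one_right h)
  · -- `uT (-s) = q (uT s)⁻¹`
    have h : uT D s * uT D (-s) = uT D (s + -s) * D.q := by
      apply uT_mul_of_le
      rw [Prod.snd_neg, val_neg_add s.2 h2]
    rw [add_neg_cancel, uT_zero, one_mul] at h
    have hn2 : (-s).2 ≠ 0 := by
      rw [Prod.snd_neg]; exact neg_ne_zero.2 h2
    have hw := good_uT D (-s) hns
    have hlt := norm_uT_lt_one D (-s) hn2
    have hql := norm_q_lt_norm_uT D (-s)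
    rw [← pt_div_q D.q D.hΔ hw D.hq0 hlt hql]
    refine some_param_congr D (good_div_q D.q hw.1 D.hq0 hlt hql) (good_inv D.q (good_uT D s hs)) ?_
    have hu0 := uT_ne_zero D s
    rw [div_eq_iff D.hq0, ← h]
    field_simp

variable [DecidableEq K]

/-- **addition of independent torsion points.** -/
theorem tP_add_of_ne
    (hinj : ∀ s t : ZMod n × ZMod n, s ≠ 0 → t ≠ 0 →
      XK (uT D s) D.q = XK (uT D t) D.q → t = s ∨ t = -s)
    (s t : ZMod n × ZMod n) (hs : s ≠ 0) (ht : t ≠ 0) (h1 : t ≠ s) (h2 : t ≠ -s) :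
    tP D (s + t) = tP D s + tP D t := by
  have hst : s + t ≠ 0 := fun h => h2 (eq_neg_of_add_eq_zero_right h)
  have hx : XK (uT D s) D.q ≠ XK (uT D t) D.q := fun h => by
    rcases hinj s t hs ht h with h | h
    · exact h1 h
    · exact h2 h
  rw [tP_eq D s hs, tP_eq D t ht, tP_eq D (s + t) hst]
  rcases Nat.lt_or_ge (s.2.val + t.2.val) n with hlt | hle
  · have e := uT_mul_of_lt D s t hlt
    have hg : Good D.q (uT D s * uT D t) := by rw [e]; exact good_uT D (s + t) hst
    rw [pt_add D.q D.hΔ (good_uT D s hs) (good_uT D t ht) hg hx]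
    exact some_param_congr D (good_uT D (s + t) hst) hg e.symm
  · have e := uT_mul_of_le D s t hle
    have ht2 : t.2 ≠ 0 := by
      intro h0
      rw [h0, ZMod.val_zero, add_zero] at hle
      exact absurd (val_lt s.2) (not_lt.2 hle)
    have hlt1 := norm_uT_lt_one D t ht2
    have hql := norm_q_lt_norm_uT D t
    have hgt := good_uT D t ht
    have hgv := good_div_q D.q hgt.1 D.hq0 hlt1 hql
    have e' : uT D s * (uT D t / D.q) = uT D (s + t) := by
      rw [← mul_div_assoc, e, mul_div_assoc, div_self D.hq0, mul_one]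
    have hg : Good D.q (uT D s * (uT D t / D.q)) := by rw [e']; exact good_uT D (s + t) hst
    have hx' : XK (uT D s) D.q ≠ XK (uT D t / D.q) D.q := by
      rw [XK_div_q (uT D t) D.q hgt.1 D.hq0 hlt1 hql]; exact hx
    rw [← pt_div_q D.q D.hΔ hgt D.hq0 hlt1 hql, pt_add D.q D.hΔ (good_uT D s hs) hgv hg hx']
    exact some_param_congr D (good_uT D (s + t) hst) hg e'.symm

theorem nsmul_eq_zero_of_coprime (m : ℕ) (hm : Nat.Coprime m n) (s : ZMod n × ZMod n)
    (h : m • s = 0) : s = 0 := by
  have hu : IsUnit ((m : ℕ) : ZMod n) := (ZMod.isUnit_iff_coprime m n).2 hm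
  have h1 : m • s.1 = 0 := congrArg Prod.fst h
  have h2 : m • s.2 = 0 := congrArg Prod.snd h
  rw [nsmul_eq_mul] at h1 h2
  exact Prod.ext ((hu.mul_right_eq_zero).1 h1) ((hu.mul_right_eq_zero).1 h2)

/-- **the torsion parametrisation is additive** (`n` prime to `6`). -/
theorem tP_add (h6 : Nat.Coprime n 6)
    (hinj : ∀ s t : ZMod n × ZMod n, s ≠ 0 → t ≠ 0 →
      XK (uT D s) D.q = XK (uT D t) D.q → t = s ∨ t = -s)
    (s t : ZMod n × ZMod n) : tP D (s + t) = tP D s + tP D t := by
  have hp2 : Nat.Coprime 2 n := (Nat.Coprime.coprime_dvd_right (by norm_num : 2 ∣ 6) h6).symm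
  have hp3' : Nat.Coprime 3 n := (Nat.Coprime.coprime_dvd_right (by norm_num : 3 ∣ 6) h6).symm
  by_cases hs : s = 0
  · subst hs
    rw [zero_add, tP_zero, zero_add]
  by_cases ht : t = 0
  · subst ht
    rw [add_zero, tP_zero, add_zero]
  by_cases h2 : t = -s
  · subst h2
    rw [add_neg_cancel, tP_zero, tP_neg, add_neg_cancel]
  by_cases h1 : t = s
  · subst h1
    -- doubling through `tP (2t) + tP (-t) = tP t`
    have h2t : t + t ≠ 0 := fun h => ht (nsmul_eq_zero_of_coprime 2 hp2 t (by rw [two_nsmul]; exact h))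
    have hnt : -t ≠ 0 := neg_ne_zero.2 ht
    have ha : -t ≠ t + t := fun h => ht (nsmul_eq_zero_of_coprime 3 hp3' t (by
      rw [succ_nsmul, two_nsmul]
      have : t + t + t = (t + t) - (-t) := by abel
      rw [this, ← h, sub_self]))
    have hb : -t ≠ -(t + t) := fun h => ht (by
      have h' := neg_injective h
      have : t = t + t - t := by abel
      rw [this, ← h', sub_self])
    have h := tP_add_of_ne D hinj (t + t) (-t) h2t hnt ha hb
    rw [add_neg_cancel_right, tP_neg, eq_add_neg_iff_add_eq] at h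
    exact h.symm
  · exact tP_add_of_ne D hinj s t hs ht h1 h2

/-! ### the packaged homomorphism (`‖n‖ = 1`) -/

section Packaged

variable (h6 : Nat.Coprime n 6) (hnK : ‖(n : K)‖ = 1)

include h6 in
theorem odd_of_coprime_six : Odd n := by
  have h2 : Nat.Coprime n 2 := Nat.Coprime.coprime_dvd_right (by norm_num : 2 ∣ 6) h6
  exact Nat.coprime_two_right.1 h2

include h6 hnK in
/-- additivity, unconditional form. -/
theorem tP_add' (s t : ZMod n × ZMod n) : tP D (s + t) = tP D s + tP D t :=
  tP_add D h6 (InjN3.XK_inj D (odd_of_coprime_six h6) hnK) s t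

/-- the parametrisation as a homomorphism. -/
def tPHom : (ZMod n × ZMod n) →+ (tateCurve D.q).toAffine.Point :=
  AddMonoidHom.mk' (tP D) (tP_add' D h6 hnK)

theorem tPHom_apply (s : ZMod n × ZMod n) : tPHom D h6 hnK s = tP D s := rfl

include h6 hnK in
theorem tP_nsmul (k : ℕ) (s : ZMod n × ZMod n) : k • tP D s = tP D (k • s) :=
  ((tPHom D h6 hnK).map_nsmul k s).symm

include h6 hnK in
theorem tP_injective : Function.Injective (tP D) := by
  have h := (injective_iff_map_eq_zero (tPHom D h6 hnK)).2 fun s hs => by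
    by_contra hne
    exact tP_ne_zero D s hne hs
  exact h

theorem n_nsmul (s : ZMod n × ZMod n) : n • s = 0 := by
  ext
  · simp
  · simp

include h6 hnK in
theorem n_nsmul_tP (s : ZMod n × ZMod n) : n • tP D s = 0 := by
  rw [tP_nsmul D h6 hnK, n_nsmul, tP_zero]

include h6 hnK in
/-- **every `n`-torsion point of `E_q` is a `tP D s`.** -/
theorem exists_tP_of_torsion (Q : (tateCurve D.q).toAffine.Point)
    (hQ : n • Q = 0) : ∃ s, tP D s = Q := by
  have hoddp : Odd n := odd_of_coprime_six h6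
  have hpK : (n : K) ≠ 0 := Nat.cast_ne_zero.2 (n_pos (n := n)).ne'
  obtain ⟨hfin, hcard⟩ :=
    Fermat.Agent.DivPoly.CountFinal.torsion_finite_ncard_le (W := (tateCurve D.q).toAffine)
      hoddp hpK
  have hsub : Set.range (tP D) ⊆ {P : (tateCurve D.q).toAffine.Point | n • P = 0} := by
    rintro _ ⟨s, rfl⟩
    exact n_nsmul_tP D h6 hnK s
  have hrange : (Set.range (tP D)).ncard = n ^ 2 := by
    rw [← Set.image_univ, Set.ncard_image_of_injective _ (tP_injective D h6 hnK), Set.ncard_univ,
      Nat.card_prod, Nat.card_zmod]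
    ring
  have heq := Set.eq_of_subset_of_ncard_le hsub (by rw [hrange]; exact hcard) hfin
  have hQ' : Q ∈ Set.range (tP D) := by
    rw [heq]
    exact hQ
  exact hQ'

include h6 hnK in
/-- the `n`-torsion of `E_q` has exactly `n²` points. -/
theorem ncard_torsion :
    {P : (tateCurve D.q).toAffine.Point | n • P = 0}.ncard = n ^ 2 := by
  have heq : {P : (tateCurve D.q).toAffine.Point | n • P = 0} = Set.range (tP D) := by
    ext Q
    constructor
    · intro hQ
      exact exists_tP_of_torsion D h6 hnK Q hQ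
    · rintro ⟨s, rfl⟩
      exact n_nsmul_tP D h6 hnK s
  rw [heq, ← Set.image_univ, Set.ncard_image_of_injective _ (tP_injective D h6 hnK),
    Set.ncard_univ, Nat.card_prod, Nat.card_zmod]
  ring

/-- **the torsion parametrisation as an isomorphism onto the `n`-torsion subgroup.** -/
def tPEquiv : (ZMod n × ZMod n) ≃+
    (AddMonoidHom.ker (DistribMulAction.toAddMonoidHom (tateCurve D.q).toAffine.Point n)) :=
  AddEquiv.ofBijective
    ((tPHom D h6 hnK).codRestrict _ fun s => by
      rw [AddMonoidHom.mem_ker]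
      exact n_nsmul_tP D h6 hnK s)
    ⟨fun s t h => tP_injective D h6 hnK (congrArg Subtype.val h), fun ⟨Q, hQ⟩ => by
      obtain ⟨s, hs⟩ := exists_tP_of_torsion D h6 hnK Q (by
        rw [AddMonoidHom.mem_ker] at hQ
        exact hQ)
      exact ⟨s, Subtype.ext hs⟩⟩

theorem tPEquiv_apply (s : ZMod n × ZMod n) : ((tPEquiv D h6 hnK s : _) :
    (tateCurve D.q).toAffine.Point) = tP D s := rfl

end Packaged

end Fermat.Agent.MS.TATE.HomN3
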