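/-
Programme MS (S12, Mazur), chapter TATE, file ParamN3 (helper3): **arithmetic of the level-`n`
torsion parameters** `uT D (a, b) = ζ^a q'^b` of the Tate curve (`TorsN3`), for the Vélu
computations at level `n = p^k` and for the canonical-subgroup criterion:

* `uT_mu`, `uT_add_fst`, `uT_nsmul_mu`, `uT_nsmul_of_lt`, `uT_pow_of_mul_eq` : parameters of multiples;
* `xOf_tP`, `XK_uT_neg` : `x`-coordinates;
* `redSingPt_tP_iff` : for `s ≠ 0` (and `‖n‖ = 1`), `tP D s` reduces to the singular point iff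
  `s.2 ≠ 0`, i.e. iff it is not in the canonical subgroup `μ_n = {tP D (a, 0)}`.
-/
import Mathlib
import Fermat.Agent.MZ.MOD.TateLT4
import Fermat.Agent.MS.TATE.HomN3

set_option autoImplicit false
set_option linter.unusedSectionVars false
set_option linter.unusedVariables false
set_option linter.style.longLine false

noncomputable section

namespace Fermat.Agent.MS.TATE.ParamN3

open Fermat.Agent.MZ.MOD
open Fermat.Agent.MZ.MOD.TateFormal4 Fermat.Agent.MZ.MOD.PSEval4 Fermat.Agent.MZ.MOD.TateEval4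
  Fermat.Agent.MZ.MOD.TateCurve4 Fermat.Agent.MZ.MOD.TateSym4 Fermat.Agent.MZ.MOD.TateNorm4
open Fermat.Agent.MZ.MOD.LTTransport5 (xOf xsOf RedSingPt)
open Fermat.Agent.MZ.MOD.RedType5 (M RedSing redSing_tateForm)
open Fermat.Agent.MZ.MOD.TateLT4 (M_a4K M_a6K)
open TorsN3 InjN3 HomN3
open WeierstrassCurve.Affine

variable {K : Type*} [NormedField K] [IsUltrametricDist K] [CompleteSpace K] [CharZero K]

variable {n : ℕ} [hn : NeZero n] (D : TorsDataN K n)

/-! ### parameters of multiples -/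

theorem zeta_pow_val (c : ZMod n) (m : ℕ) (h : (m : ZMod n) = c) : D.ζ ^ c.val = D.ζ ^ m := by
  subst h
  rw [ZMod.val_natCast]
  conv_rhs => rw [← Nat.mod_add_div m n, pow_add, pow_mul, D.hζ.pow_eq_one, one_pow, mul_one]

theorem val_natCast_of_lt {k : ℕ} (hk : k < n) : ((k : ℕ) : ZMod n).val = k := by
  rw [ZMod.val_natCast, Nat.mod_eq_of_lt hk]

theorem nsmul_pair (k : ℕ) (a b : ZMod n) : k • ((a, b) : ZMod n × ZMod n) =
    ((k : ZMod n) * a, (k : ZMod n) * b) := by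
  ext
  · simp
  · simp

theorem uT_mu (a : ZMod n) : uT D (a, 0) = D.ζ ^ a.val := by
  rw [uT]
  simp

theorem uT_mk (a b : ZMod n) : uT D (a, b) = D.ζ ^ a.val * D.q' ^ b.val := rfl

/-- multiplicativity in the first coordinate. -/
theorem uT_add_fst (a c b : ZMod n) : uT D (a + c, b) = D.ζ ^ c.val * uT D (a, b) := by
  rw [uT_mk, uT_mk, zeta_pow_val_add]
  ring

/-- `μ_n` case: `uT D (k • (a, 0)) = (uT D (a, 0)) ^ k`. -/
theorem uT_nsmul_mu (a : ZMod n) (k : ℕ) :
    uT D (k • ((a, 0) : ZMod n × ZMod n)) = uT D (a, 0) ^ k := by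
  rw [nsmul_pair, uT_mk, uT_mk]
  rw [mul_zero, ZMod.val_zero, pow_zero, mul_one, mul_one,
    zeta_pow_val D ((k : ZMod n) * a) (k * a.val) (by rw [Nat.cast_mul, natCast_val]),
    ← pow_mul, mul_comm a.val k]

/-- no carry: `uT D (i • (a, d)) = (uT D (a, d)) ^ i` as long as `i * d < n`. -/
theorem uT_nsmul_of_lt (a : ZMod n) (d i : ℕ) (h : i * d < n) (hd : d < n) :
    uT D (i • ((a, (d : ZMod n)) : ZMod n × ZMod n)) = uT D (a, (d : ZMod n)) ^ i := by
  rw [nsmul_pair, uT_mk, uT_mk, val_natCast_of_lt hd]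
  have e : ((i : ZMod n) * (d : ZMod n)).val = i * d := by
    rw [← Nat.cast_mul, val_natCast_of_lt h]
  rw [e, zeta_pow_val D ((i : ZMod n) * a) (i * a.val) (by rw [Nat.cast_mul, natCast_val]),
    mul_pow, ← pow_mul, ← pow_mul, mul_comm a.val i, mul_comm d i]

/-- `(uT D (a, d)) ^ e = ζ^(a e) · q` when `d * e = n`. -/
theorem uT_pow_of_mul_eq (a : ZMod n) (d e : ℕ) (hde : d * e = n) (hd : d < n) :
    uT D (a, (d : ZMod n)) ^ e = D.ζ ^ (a.val * e) * D.q := by
  rw [uT_mk, val_natCast_of_lt hd, mul_pow, ← pow_mul, ← pow_mul, hde, D.hq']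

/-- `(uT D s) ^ n = q ^ s.2.val`. -/
theorem uT_pow_n (s : ZMod n × ZMod n) : uT D s ^ n = D.q ^ s.2.val := by
  rw [uT, mul_pow, ← pow_mul, mul_comm s.1.val n, pow_mul, D.hζ.pow_eq_one, one_pow, one_mul,
    ← pow_mul, mul_comm s.2.val n, pow_mul, D.hq']

/-! ### `x`-coordinates -/

variable [DecidableEq K]

theorem xOf_tP (s : ZMod n × ZMod n) (hs : s ≠ 0) : xOf (tP D s) = XK (uT D s) D.q := by
  rw [tP_of_ne D s hs]
  rfl

theorem xOf_neg {W : WeierstrassCurve K} (P : W.toAffine.Point) : xOf (-P) = xOf P := by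
  rcases P with _ | ⟨x, y, h⟩
  · rfl
  · rfl

theorem XK_uT_neg (s : ZMod n × ZMod n) (hs : s ≠ 0) :
    XK (uT D (-s)) D.q = XK (uT D s) D.q := by
  rw [← xOf_tP D (-s) (neg_ne_zero.2 hs), tP_neg D, xOf_neg, xOf_tP D s hs]

/-! ### reduction of the torsion points -/

theorem redSingPt_tP (s : ZMod n × ZMod n) (hs : s ≠ 0) :
    RedSingPt (tateCurve D.q) (tP D s) ↔ M (XK (uT D s) D.q) ∧ M (YK (uT D s) D.q) := by
  rw [tP_of_ne D s hs]
  show RedSing (tateCurve D.q) _ _ ↔ _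
  exact redSing_tateForm (M_a4K D.q D.hq1) (M_a6K D.q D.hq1) (nonsingular_uT D s hs).1

/-- a torsion point outside the canonical subgroup reduces to the singular point. -/
theorem redSingPt_tP_of_snd_ne (s : ZMod n × ZMod n) (hb : s.2 ≠ 0) :
    RedSingPt (tateCurve D.q) (tP D s) := by
  have hs : s ≠ 0 := fun h => hb (by rw [h]; rfl)
  rw [redSingPt_tP D _ hs]
  have hlt := norm_uT_lt_one D s hb
  have h0 := uT_ne_zero D s
  have hq' := norm_q_lt_norm_uT D s
  have hM := Mid_lt_one _ _ h0 hlt hq'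
  exact ⟨(norm_XK_le_mid _ _ h0 hlt hq').trans_lt hM, (norm_YK_le_mid _ _ h0 hlt hq').trans_lt hM⟩

/-- a nonzero point of the canonical subgroup does not reduce to the singular point. -/
theorem not_redSingPt_tP_of_snd_eq (hnK : ‖(n : K)‖ = 1) (s : ZMod n × ZMod n) (hs : s ≠ 0)
    (hb : s.2 = 0) : ¬ RedSingPt (tateCurve D.q) (tP D s) := by
  obtain ⟨a, b⟩ := s
  simp only at hb
  subst hb
  have ha : a ≠ 0 := fun h0 => hs (by rw [h0]; rfl)
  rw [redSingPt_tP D _ hs]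
  rintro ⟨hx, -⟩
  have h1 : ‖XK (uT D (a, 0)) D.q‖ = 1 :=
    TateInj4.norm_XK_unit _ _ (norm_uT_eq_one D (a, 0) rfl) (by
      rw [uT_mu]
      exact norm_one_sub_root D.ζ n (two_le_of_ne_zero hs) D.hζ hnK _ (not_dvd_val ha)) D.hq1
  rw [M, h1] at hx
  exact lt_irrefl _ hx

/-- **the canonical-subgroup criterion**: for `s ≠ 0`, `tP D s` reduces to the singular point iff
`s.2 ≠ 0`. -/
theorem redSingPt_tP_iff (hnK : ‖(n : K)‖ = 1) (s : ZMod n × ZMod n) (hs : s ≠ 0) :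
    RedSingPt (tateCurve D.q) (tP D s) ↔ s.2 ≠ 0 := by
  constructor
  · intro h hb
    exact not_redSingPt_tP_of_snd_eq D hnK s hs hb h
  · exact redSingPt_tP_of_snd_ne D s

end Fermat.Agent.MS.TATE.ParamN3
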