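/-
Programme MS (S12, Mazur), chapter TATE, file AdaptedEmb3 (helper3): **embeddings `ℚ̄ → K` adapted
to a place `A` of `ℚ̄`, and the zero-component bridge for arbitrary (non-rational) points.**

`K` an ultrametric normed field, `f : ℚ̄ →ₐ[ℚ] K`.
* `placeOf f` : the valuation subring `{x | ‖f x‖ ≤ 1}` of `ℚ̄`; `Adapted A f : ∀ x, x ∈ A ↔ ‖f x‖ ≤ 1`;
  `Adapted.mem_nonunits_iff : x ∈ A.nonunits ↔ ‖f x‖ < 1`;
* `exists_adapted` : **for every place `A` of `ℚ̄` over a prime `r` there is `f : ℚ̄ →ₐ[ℚ] ℂ_[r]` adapted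
  to `A`** (`IsAlgClosed.lift` and the transitivity of `G_ℚ` on the places over `r`);
* `inZeroComponentAt_iff_adapted` : for `W / ℤ`, `f` adapted to `A` and ANY point `(x, y)` of
  `W(ℚ̄)`: `W.InZeroComponentAt A (some x y _) ↔ ¬ RedSing (W over K) (f x) (f y)`;
* `inZeroComponentAt_iff_map` : the same for `Point.map f Q` and `RedSingPt`.
(generalising `MZ/MOD/ZeroComp5.inZeroComponentAt_iff` from rational points to all points.)
-/
import Mathlib
import Fermat.Agent.MZ.MOD.LocalGlobal5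
import Fermat.Agent.TW.GRP.PlaceConj3

set_option autoImplicit false
set_option linter.unusedSectionVars false
set_option linter.unusedVariables false
set_option linter.style.longLine false

open scoped Pointwise

namespace Fermat.Agent.MS.TATE.AdaptedEmb3

open WeierstrassCurve WeierstrassCurve.Affine
open Fermat.Agent.MZ.MOD.RedType5 Fermat.Agent.MZ.MOD.LTTransport5
open Fermat.Agent.MZ.MOD.ZeroComp5 (y_mem_O_of_equation isIntegralW_map_int
  norm_intCast_padicComplex_lt_one_iff)

local notation "Qb" => AlgebraicClosure ℚ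

noncomputable section

/-! ### the place of an embedding -/

section Place

variable {K : Type*} [NormedField K] [IsUltrametricDist K] [CharZero K]

/-- the valuation subring `{x | ‖f x‖ ≤ 1}` of `ℚ̄`. -/
def placeOf (f : Qb →ₐ[ℚ] K) : ValuationSubring Qb where
  carrier := {x | ‖f x‖ ≤ 1}
  mul_mem' := by
    intro a b ha hb
    simp only [Set.mem_ofPred_eq] at ha hb ⊢
    rw [map_mul, norm_mul]
    exact mul_le_one₀ ha (norm_nonneg _) hb
  one_mem' := by simp
  add_mem' := by
    intro a b ha hb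
    simp only [Set.mem_ofPred_eq] at ha hb ⊢
    rw [map_add]
    exact (IsUltrametricDist.norm_add_le_max _ _).trans (max_le ha hb)
  zero_mem' := by simp
  neg_mem' := by
    intro a ha
    simp only [Set.mem_ofPred_eq] at ha ⊢
    rwa [map_neg, norm_neg]
  mem_or_inv_mem' := by
    intro a
    simp only [Set.mem_ofPred_eq]
    by_cases h : ‖f a‖ ≤ 1
    · exact Or.inl h
    · right
      rw [not_le] at h
      rw [map_inv₀, norm_inv]
      exact (inv_lt_one_of_one_lt₀ h).le

theorem mem_placeOf (f : Qb →ₐ[ℚ] K) (x : Qb) : x ∈ placeOf f ↔ ‖f x‖ ≤ 1 := Iff.rfl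

/-- `f` is adapted to the place `A`. -/
def Adapted (A : ValuationSubring Qb) (f : Qb →ₐ[ℚ] K) : Prop := ∀ x : Qb, x ∈ A ↔ ‖f x‖ ≤ 1

theorem adapted_placeOf (f : Qb →ₐ[ℚ] K) : Adapted (placeOf f) f := fun _ => Iff.rfl

theorem Adapted.eq_placeOf {A : ValuationSubring Qb} {f : Qb →ₐ[ℚ] K} (hf : Adapted A f) :
    A = placeOf f :=
  SetLike.ext fun x => (hf x).trans (mem_placeOf f x).symm

theorem Adapted.mem_nonunits_iff {A : ValuationSubring Qb} {f : Qb →ₐ[ℚ] K} (hf : Adapted A f)
    (x : Qb) : x ∈ A.nonunits ↔ ‖f x‖ < 1 := by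
  by_cases hx : x = 0
  · subst hx
    rw [map_zero, norm_zero]
    refine ⟨fun _ => zero_lt_one, fun _ => ?_⟩
    rw [ValuationSubring.mem_nonunits_iff, map_zero]
    exact zero_lt_one
  have hfx : f x ≠ 0 := fun h => hx ((map_eq_zero f).1 h)
  have hpos : 0 < ‖f x‖ := norm_pos_iff.2 hfx
  rw [ValuationSubring.mem_nonunits_iff]
  have hv0 : A.valuation x ≠ 0 := (Valuation.ne_zero_iff _).2 hx
  have h1 : A.valuation x < 1 ↔ ¬ A.valuation x⁻¹ ≤ 1 := by
    rw [map_inv₀, inv_le_one₀ (zero_lt_iff.2 hv0), not_le]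
  rw [h1, ValuationSubring.valuation_le_one_iff, hf x⁻¹, map_inv₀, norm_inv,
    inv_le_one₀ hpos, not_le]

theorem Adapted.valuation_eq_one_iff {A : ValuationSubring Qb} {f : Qb →ₐ[ℚ] K} (hf : Adapted A f)
    (x : Qb) : A.valuation x = 1 ↔ ‖f x‖ = 1 := by
  have h1 := hf x
  have h2 := hf.mem_nonunits_iff x
  rw [← ValuationSubring.valuation_le_one_iff] at h1
  rw [ValuationSubring.mem_nonunits_iff] at h2
  constructor
  · intro h
    exact le_antisymm (h1.mp h.le)
      (not_lt.mp fun hlt => absurd (h2.mpr hlt) (by rw [h]; exact lt_irrefl _))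
  · intro h
    exact le_antisymm (h1.mpr h.le)
      (not_lt.mp fun hlt => absurd (h2.mp hlt) (by rw [h]; exact lt_irrefl _))

theorem Adapted.liesOverPrime {A : ValuationSubring Qb} {f : Qb →ₐ[ℚ] K} (hf : Adapted A f)
    {r : ℕ} (hr : ‖(r : K)‖ < 1) : A.LiesOverPrime r := by
  show (r : Qb) ∈ A.nonunits
  rw [hf.mem_nonunits_iff, map_natCast]
  exact hr

/-- conjugating an adapted embedding. -/
theorem Adapted.smul {A : ValuationSubring Qb} {f : Qb →ₐ[ℚ] K} (hf : Adapted A f)
    (g : Qb ≃ₐ[ℚ] Qb) : Adapted (g • A) (f.comp (g⁻¹ : Qb ≃ₐ[ℚ] Qb).toAlgHom) := by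
  intro x
  rw [ValuationSubring.mem_pointwise_smul_iff_inv_smul_mem, hf]
  rfl

end Place

/-! ### existence of adapted embeddings into `ℂ_[r]` -/

section Exists

theorem norm_natCast_self_padicComplex (r : ℕ) [Fact r.Prime] : ‖(r : ℂ_[r])‖ < 1 := by
  have h := (norm_intCast_padicComplex_lt_one_iff r (r : ℤ)).2 dvd_rfl
  rwa [Int.cast_natCast] at h

/-- **every place of `ℚ̄` over `r` is the place of an embedding `ℚ̄ → ℂ_[r]`.** -/
theorem exists_adapted (r : ℕ) [hr : Fact r.Prime] (A : ValuationSubring Qb)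
    (hA : A.LiesOverPrime r) : ∃ f : Qb →ₐ[ℚ] ℂ_[r], Adapted A f := by
  let f₀ : Qb →ₐ[ℚ] ℂ_[r] := IsAlgClosed.lift
  have h₀ : (placeOf f₀).LiesOverPrime r :=
    (adapted_placeOf f₀).liesOverPrime (norm_natCast_self_padicComplex r)
  obtain ⟨g, hg⟩ := Fermat.Agent.TW.GRP.PlaceConj3.exists_smul_eq hr.out h₀ hA
  refine ⟨f₀.comp (g⁻¹ : Qb ≃ₐ[ℚ] Qb).toAlgHom, ?_⟩
  rw [hg]
  exact (adapted_placeOf f₀).smul g

end Exists

/-! ### the zero-component bridge for arbitrary points -/

section Bridge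

variable {K : Type*} [NormedField K] [IsUltrametricDist K] [CharZero K]

/-- **the bridge**: for `f` adapted to `A` and an arbitrary point `(x, y)` of `W(ℚ̄)`, lying in the
zero component at `A` means NOT reducing to the singular point (in `K`, through `f`). -/
theorem inZeroComponentAt_iff_adapted (W : WeierstrassCurve ℤ) {A : ValuationSubring Qb}
    {f : Qb →ₐ[ℚ] K} (hf : Adapted A f) (x y : Qb)
    (h : ((W.map (Int.castRingHom ℚ))⁄Qb).toAffine.Nonsingular x y) :
    W.InZeroComponentAt A (.some x y h) ↔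
      ¬ RedSing (W.map (Int.castRingHom K)) (f x) (f y) := by
  -- the equation over `ℚ̄`
  have hEq : y ^ 2 + (W.a₁ : Qb) * x * y + (W.a₃ : Qb) * y =
      x ^ 3 + (W.a₂ : Qb) * x ^ 2 + (W.a₄ : Qb) * x + (W.a₆ : Qb) := by
    have h1 := h.1
    rw [WeierstrassCurve.Affine.equation_iff] at h1
    simp only [WeierstrassCurve.baseChange, WeierstrassCurve.map_a₁, WeierstrassCurve.map_a₂,
      WeierstrassCurve.map_a₃, WeierstrassCurve.map_a₄, WeierstrassCurve.map_a₆, eq_intCast,
      eq_ratCast, Rat.cast_intCast] at h1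
    exact h1
  -- the equation over `K`
  have hEK : (W.map (Int.castRingHom K)).toAffine.Equation (f x) (f y) := by
    rw [WeierstrassCurve.Affine.equation_iff]
    simp only [WeierstrassCurve.map_a₁, WeierstrassCurve.map_a₂, WeierstrassCurve.map_a₃,
      WeierstrassCurve.map_a₄, WeierstrassCurve.map_a₆, eq_intCast]
    have := congrArg f hEq
    simpa only [map_add, map_mul, map_pow, map_intCast] using this
  -- the partial derivatives
  set wX : Qb := (W.a₁ : Qb) * y - (3 * x ^ 2 + 2 * (W.a₂ : Qb) * x + (W.a₄ : Qb)) with hwX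
  set wY : Qb := 2 * y + (W.a₁ : Qb) * x + (W.a₃ : Qb) with hwY
  have hWX : WX (W.map (Int.castRingHom K)) (f x) (f y) = f wX := by
    rw [WX, hwX]
    simp only [WeierstrassCurve.map_a₁, WeierstrassCurve.map_a₂, WeierstrassCurve.map_a₄,
      eq_intCast, map_sub, map_add, map_mul, map_pow, map_intCast, map_ofNat]
  have hWY : WY (W.map (Int.castRingHom K)) (f x) (f y) = f wY := by
    rw [WY, hwY]
    simp only [WeierstrassCurve.map_a₁, WeierstrassCurve.map_a₃, eq_intCast, map_add, map_mul,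
      map_intCast, map_ofNat]
  have intCast_memA : ∀ n : ℤ, (n : Qb) ∈ A := fun n => by
    rw [hf, map_intCast]
    exact IsUltrametricDist.norm_intCast_le_one K n
  have ofNat_memA : ∀ (n : ℕ) [n.AtLeastTwo], (OfNat.ofNat n : Qb) ∈ A := fun n _ => by
    rw [hf, map_ofNat, ← Nat.cast_ofNat]
    exact IsUltrametricDist.norm_natCast_le_one K n
  -- the residue computations
  have key : ∀ (hx : x ∈ A) (hy : y ∈ A),
      (W.map (Int.castRingHom (IsLocalRing.ResidueField A))).toAffine.Nonsingular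
        (IsLocalRing.residue A ⟨x, hx⟩) (IsLocalRing.residue A ⟨y, hy⟩) ↔
      ¬ (M (f wX) ∧ M (f wY)) := by
    intro hx hy
    set ρ := IsLocalRing.residue (↥A) with hρ
    have hwXA : wX ∈ A := by
      rw [hwX]
      exact sub_mem (mul_mem (intCast_memA _) hy) (add_mem (add_mem (mul_mem (ofNat_memA 3)
        (pow_mem hx 2)) (mul_mem (mul_mem (ofNat_memA 2) (intCast_memA _)) hx)) (intCast_memA _))
    have hwYA : wY ∈ A := by
      rw [hwY]
      exact add_mem (add_mem (mul_mem (ofNat_memA 2) hy) (mul_mem (intCast_memA _) hx))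
        (intCast_memA _)
    have eX : (W.map (Int.castRingHom (IsLocalRing.ResidueField A))).a₁ * ρ ⟨y, hy⟩ -
        (3 * ρ ⟨x, hx⟩ ^ 2 + 2 * (W.map (Int.castRingHom (IsLocalRing.ResidueField A))).a₂ *
          ρ ⟨x, hx⟩ + (W.map (Int.castRingHom (IsLocalRing.ResidueField A))).a₄) =
        ρ ⟨wX, hwXA⟩ := by
      have : (⟨wX, hwXA⟩ : A) = (W.a₁ : A) * ⟨y, hy⟩ -
          (3 * (⟨x, hx⟩ : A) ^ 2 + 2 * (W.a₂ : A) * ⟨x, hx⟩ + (W.a₄ : A)) := by
        apply Subtype.ext
        change wX = _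
        rw [hwX]
        push_cast
        rfl
      rw [this]
      simp only [WeierstrassCurve.map_a₁, WeierstrassCurve.map_a₂, WeierstrassCurve.map_a₄,
        eq_intCast, map_sub, map_add, map_mul, map_pow, map_intCast, map_ofNat]
    have eY : 2 * ρ ⟨y, hy⟩ + (W.map (Int.castRingHom (IsLocalRing.ResidueField A))).a₁ *
        ρ ⟨x, hx⟩ + (W.map (Int.castRingHom (IsLocalRing.ResidueField A))).a₃ =
        ρ ⟨wY, hwYA⟩ := by
      have : (⟨wY, hwYA⟩ : A) = 2 * (⟨y, hy⟩ : A) + (W.a₁ : A) * ⟨x, hx⟩ + (W.a₃ : A) := by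
        apply Subtype.ext
        change wY = _
        rw [hwY]
        push_cast
        rfl
      rw [this]
      simp only [WeierstrassCurve.map_a₁, WeierstrassCurve.map_a₃,
        eq_intCast, map_add, map_mul, map_intCast, map_ofNat]
    have hzero : ∀ (a : Qb) (ha : a ∈ A), ρ ⟨a, ha⟩ = 0 ↔ M (f a) := by
      intro a ha
      rw [hρ, IsLocalRing.residue_eq_zero_iff, ← ValuationSubring.coe_mem_nonunits_iff]
      exact hf.mem_nonunits_iff a
    -- the reduced equation
    have hEred : (W.map (Int.castRingHom (IsLocalRing.ResidueField A))).toAffine.Equation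
        (ρ ⟨x, hx⟩) (ρ ⟨y, hy⟩) := by
      rw [WeierstrassCurve.Affine.equation_iff]
      have hA' : (⟨y, hy⟩ : A) ^ 2 + (W.a₁ : A) * ⟨x, hx⟩ * ⟨y, hy⟩ + (W.a₃ : A) * ⟨y, hy⟩ =
          (⟨x, hx⟩ : A) ^ 3 + (W.a₂ : A) * (⟨x, hx⟩ : A) ^ 2 + (W.a₄ : A) * ⟨x, hx⟩ + (W.a₆ : A) := by
        apply Subtype.ext
        push_cast
        exact hEq
      have := congrArg ρ hA'
      simpa only [WeierstrassCurve.map_a₁, WeierstrassCurve.map_a₂, WeierstrassCurve.map_a₃,
        WeierstrassCurve.map_a₄, WeierstrassCurve.map_a₆,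
        eq_intCast, map_add, map_mul, map_pow, map_intCast] using this
    rw [WeierstrassCurve.Affine.nonsingular_iff', eX, eY]
    constructor
    · rintro ⟨-, hne⟩ ⟨hmX, hmY⟩
      rcases hne with hne | hne
      · exact hne ((hzero wX hwXA).mpr hmX)
      · exact hne ((hzero wY hwYA).mpr hmY)
    · intro hnot
      refine ⟨hEred, ?_⟩
      by_contra hcon
      push Not at hcon
      exact hnot ⟨(hzero wX hwXA).mp hcon.1, (hzero wY hwYA).mp hcon.2⟩
  -- assemble
  unfold WeierstrassCurve.InZeroComponentAt RedSing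
  rw [hWX, hWY]
  constructor
  · rintro (h0 | ⟨x', y', h', heq, hcase⟩)
    · exact absurd h0 (by simp)
    · injection heq with h1 h2
      subst h1 h2
      rintro ⟨hxO, hyO, hmX, hmY⟩
      rcases hcase with hxA | ⟨hx, hy, hns⟩
      · exact hxA ((hf x).mpr hxO)
      · exact ((key hx hy).mp hns) ⟨hmX, hmY⟩
  · intro hnot
    refine Or.inr ⟨_, _, h, rfl, ?_⟩
    by_cases hx : x ∈ A
    · right
      have hxO : f x ∈ O K := (hf x).mp hx
      have hyO : f y ∈ O K := y_mem_O_of_equation (isIntegralW_map_int W) hxO hEK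
      have hy : y ∈ A := (hf y).mpr hyO
      refine ⟨hx, hy, (key hx hy).mpr fun hm => hnot ⟨hxO, hyO, hm.1, hm.2⟩⟩
    · exact Or.inl hx

variable [DecidableEq K]

/-- `RedSingPt` along the identification `(W_ℚ)⁄K = W.map (ℤ → K)`. -/
theorem redSingPt_some (W : WeierstrassCurve ℤ) (x y : K)
    (h : ((W.map (Int.castRingHom ℚ))⁄K).toAffine.Nonsingular x y) :
    RedSingPt ((W.map (Int.castRingHom ℚ))⁄K) (.some x y h) ↔
      RedSing (W.map (Int.castRingHom K)) x y := by
  show RedSing ((W.map (Int.castRingHom ℚ))⁄K) x y ↔ _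
  rw [Fermat.Agent.MZ.MOD.LocalGlobal5.baseChange_eq_map_int]

/-- **the bridge, point form**: `Q ∈ W(ℚ̄)` is in the zero component at `A` iff its image in `W(K)`
does not reduce to the singular point. -/
theorem inZeroComponentAt_iff_map (W : WeierstrassCurve ℤ) {A : ValuationSubring Qb}
    {f : Qb →ₐ[ℚ] K} (hf : Adapted A f)
    (Q : ((W.map (Int.castRingHom ℚ))⁄Qb).Point) :
    W.InZeroComponentAt A Q ↔
      ¬ RedSingPt ((W.map (Int.castRingHom ℚ))⁄K) (Point.map f Q) := by
  rcases Q with _ | ⟨x, y, h⟩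
  · constructor
    · intro _ hcon
      exact hcon
    · intro _
      exact Or.inl rfl
  · refine (inZeroComponentAt_iff_adapted W hf x y h).trans ?_
    have : Point.map (W' := (W.map (Int.castRingHom ℚ))) f (.some x y h) =
        .some (f x) (f y) ((WeierstrassCurve.Affine.baseChange_nonsingular _
          f.injective x y).mpr h) := rfl
    rw [this, redSingPt_some]

end Bridge

end

end Fermat.Agent.MS.TATE.AdaptedEmb3
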