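/-
Programme MS (S12, Mazur), chapter TATE, file SepP3 (helper3): **separation lemmas for the
`x`-coordinate of the Tate curve valid in EVERY residue characteristic** (no hypothesis like
`‖n‖ = 1`): from the Lambert form `X(u) = F(u) + ∑_d a_d(u) q^d/(1-q^d)`, `F(u) = u/(1-u)²`,
`a_d(u) - a_d(v) = d (u^d - v^d)(1 - (uv)^{-d})`:

* `XK_sub_approx_unit` : on the unit circle, `‖X(u) - X(v) - (F u - F v)‖ ≤ ‖q‖ ‖u - v‖ ‖1 - uv‖`;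
* `XK_ne_of_unit'` : `‖u‖ = ‖v‖ = 1`, `u, v ≠ 1`, `u ≠ v`, `uv ≠ 1` ⇒ `X(u) ≠ X(v)`;
* `norm_XK_unit'` : `‖u‖ = 1`, `u ≠ 1` ⇒ `‖X(u)‖ = ‖1 - u‖⁻²` (`≥ 1`);
* `XK_ne_of_mid'` : `‖u‖ = ‖v‖ < 1`, `‖q‖ < ‖u‖²`, `u ≠ v` ⇒ `X(u) ≠ X(v)`.
-/
import Mathlib
import Fermat.Agent.MZ.MOD.TateNorm4

set_option autoImplicit false
set_option linter.unusedSectionVars false
set_option linter.unusedVariables false

open PowerSeries

namespace Fermat.Agent.MS.TATE.SepP3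

open Fermat.Agent.MZ.MOD
open TateFormal4 PSEval4 Regroup4 TateEval4 TateD4 TateLambert4 TateCurve4 TateSym4 TateNorm4

variable {K : Type*} [NormedField K] [IsUltrametricDist K] [CompleteSpace K]

/-- `F(u) = u/(1-u)²`. -/
noncomputable def F0 (u : K) : K := u * ((1 - u)⁻¹) ^ 2

theorem F0_sub (u v : K) (hu : u ≠ 1) (hv : v ≠ 1) :
    F0 u - F0 v = (u - v) * (1 - u * v) * ((1 - u)⁻¹) ^ 2 * ((1 - v)⁻¹) ^ 2 := by
  have h1 : (1 - u) ≠ 0 := sub_ne_zero.2 (Ne.symm hu)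
  have h2 : (1 - v) ≠ 0 := sub_ne_zero.2 (Ne.symm hv)
  unfold F0
  field_simp
  ring

theorem aX_sub (u v : K) (hu0 : u ≠ 0) (hv0 : v ≠ 0) (d : ℕ) :
    aX u d - aX v d = (d : K) * ((u ^ d - v ^ d) * (1 - (u * v)⁻¹ ^ d)) := by
  rw [aX, aX, inv_pow, inv_pow, inv_pow, mul_pow]
  have h1 : u ^ d ≠ 0 := pow_ne_zero _ hu0
  have h2 : v ^ d ≠ 0 := pow_ne_zero _ hv0
  field_simp
  ring

/-- `‖u^d - v^d‖ ≤ ‖u - v‖ R^(d-1)` for `‖u‖, ‖v‖ ≤ R`. -/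
theorem norm_pow_sub_pow_le (u v : K) (R : ℝ) (hu : ‖u‖ ≤ R) (hv : ‖v‖ ≤ R) (d : ℕ) :
    ‖u ^ d - v ^ d‖ ≤ ‖u - v‖ * R ^ (d - 1) := by
  have hR : 0 ≤ R := (norm_nonneg u).trans hu
  rw [← geom_sum₂_mul, norm_mul, mul_comm]
  gcongr
  refine IsUltrametricDist.norm_sum_le_of_forall_le_of_nonneg (pow_nonneg hR _) fun i hi => ?_
  rw [Finset.mem_range] at hi
  rw [norm_mul, norm_pow, norm_pow]
  calc ‖u‖ ^ i * ‖v‖ ^ (d - 1 - i) ≤ R ^ i * R ^ (d - 1 - i) := by gcongr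
    _ = R ^ (d - 1) := by
        rw [← pow_add]
        congr 1
        omega

/-- the difference of the two Lambert series. -/
theorem XK_sub_lambert (u v q : K) (hu0 : u ≠ 0) (hu1 : u ≠ 1) (hv0 : v ≠ 0) (hv1 : v ≠ 1)
    (hρu : rho u * ‖q‖ < 1) (hρv : rho v * ‖q‖ < 1) :
    XK u q - XK v q - (F0 u - F0 v) =
      ∑' d : ℕ+, (aX u d - aX v d) * (q ^ (d : ℕ) / (1 - q ^ (d : ℕ))) := by
  obtain ⟨su, eu⟩ := XK_lambert u q hu0 hu1 hρu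
  obtain ⟨sv, ev⟩ := XK_lambert v q hv0 hv1 hρv
  have e : ∀ d : ℕ+, (aX u d - aX v d) * (q ^ (d : ℕ) / (1 - q ^ (d : ℕ))) =
      aX u d * (q ^ (d : ℕ) / (1 - q ^ (d : ℕ))) - aX v d * (q ^ (d : ℕ) / (1 - q ^ (d : ℕ))) :=
    fun d => sub_mul _ _ _
  simp_rw [e]
  rw [su.tsum_sub sv, eu, ev, F0, F0]
  ring

/-! ### the unit circle -/

section Unit

variable (u v q : K) (hu : ‖u‖ = 1) (hv : ‖v‖ = 1) (hu1 : u ≠ 1) (hv1 : v ≠ 1) (hq : ‖q‖ < 1)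

include hu hv hu1 hv1 hq in
theorem XK_sub_approx_unit :
    ‖XK u q - XK v q - (F0 u - F0 v)‖ ≤ ‖q‖ * (‖u - v‖ * ‖1 - u * v‖) := by
  have hu0 := ne_zero_of_norm_one u hu
  have hv0 := ne_zero_of_norm_one v hv
  have hρu : rho u * ‖q‖ < 1 := by rw [rho_of_norm_one u hu, one_mul]; exact hq
  have hρv : rho v * ‖q‖ < 1 := by rw [rho_of_norm_one v hv, one_mul]; exact hq
  rw [XK_sub_lambert u v q hu0 hu1 hv0 hv1 hρu hρv]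
  refine IsUltrametricDist.norm_tsum_le_of_forall_le_of_nonneg
    (mul_nonneg (norm_nonneg q) (mul_nonneg (norm_nonneg _) (norm_nonneg _))) fun d => ?_
  rw [aX_sub u v hu0 hv0, norm_mul, norm_mul, norm_mul]
  have h1 : ‖((d : ℕ) : K)‖ ≤ 1 := norm_natCast_le_one _
  have h2 : ‖u ^ (d : ℕ) - v ^ (d : ℕ)‖ ≤ ‖u - v‖ := by
    have := norm_pow_sub_pow_le u v 1 hu.le hv.le d
    rwa [one_pow, mul_one] at this
  have hw : ‖u * v‖ = 1 := by rw [norm_mul, hu, hv, one_mul]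
  have hw0 : u * v ≠ 0 := mul_ne_zero hu0 hv0
  have h3 : ‖1 - (u * v)⁻¹ ^ (d : ℕ)‖ ≤ ‖1 - u * v‖ := by
    have e : 1 - (u * v)⁻¹ ^ (d : ℕ) = (u * v)⁻¹ ^ (d : ℕ) * ((u * v) ^ (d : ℕ) - 1 ^ (d : ℕ)) := by
      rw [one_pow, mul_sub, mul_one, ← mul_pow, inv_mul_cancel₀ hw0, one_pow]
    rw [e, norm_mul, norm_pow, norm_inv, hw, inv_one, one_pow, one_mul]
    have := norm_pow_sub_pow_le (u * v) 1 1 hw.le (by rw [norm_one]) d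
    simp only [one_pow, mul_one] at this
    rw [one_pow, norm_sub_rev 1 (u * v)]
    exact this
  have h4 := norm_Q_le hq d d.ne_zero
  calc ‖((d : ℕ) : K)‖ * (‖u ^ (d : ℕ) - v ^ (d : ℕ)‖ * ‖1 - (u * v)⁻¹ ^ (d : ℕ)‖) *
        ‖q ^ (d : ℕ) / (1 - q ^ (d : ℕ))‖ ≤ 1 * (‖u - v‖ * ‖1 - u * v‖) * ‖q‖ := by gcongr
    _ = ‖q‖ * (‖u - v‖ * ‖1 - u * v‖) := by ring

include hu hu1 in
theorem norm_F0_unit : ‖F0 u‖ = (‖1 - u‖⁻¹) ^ 2 := by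
  rw [F0, norm_mul, hu, one_mul, norm_pow, norm_inv]

include hu hu1 in
theorem one_le_norm_F0_unit : 1 ≤ ‖F0 u‖ := by
  rw [norm_F0_unit u hu hu1]
  have h0 : 0 < ‖1 - u‖ := norm_pos_iff.2 (sub_ne_zero.2 (Ne.symm hu1))
  have h1 : ‖1 - u‖ ≤ 1 := by
    refine (norm_sub_le_max _ _).trans ?_
    rw [norm_one, hu, max_self]
  exact one_le_pow₀ ((one_le_inv₀ h0).2 h1)

include hu hu1 hq in
/-- on the unit circle `‖X(u)‖ = ‖1 - u‖⁻² ≥ 1` (every residue characteristic). -/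
theorem norm_XK_unit' : ‖XK u q‖ = (‖1 - u‖⁻¹) ^ 2 := by
  have hE := XK_approx_unit u q hu hu1 hq
  have hF := one_le_norm_F0_unit u hu hu1
  have hlt : ‖XK u q - F0 u‖ < ‖F0 u‖ := (hE.trans_lt hq).trans_le hF
  have e : XK u q = F0 u + (XK u q - F0 u) := by ring
  rw [e, norm_add_eq_left hlt, norm_F0_unit u hu hu1]

include hu hu1 hq in
theorem one_le_norm_XK_unit : 1 ≤ ‖XK u q‖ := by
  rw [norm_XK_unit' u q hu hu1 hq, ← norm_F0_unit u hu hu1]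
  exact one_le_norm_F0_unit u hu hu1

include hu hv hu1 hv1 hq in
/-- **separation on the unit circle, every residue characteristic.** -/
theorem XK_ne_of_unit' (huv : u ≠ v) (huv' : u * v ≠ 1) : XK u q ≠ XK v q := by
  intro hX
  have hE := XK_sub_approx_unit u v q hu hv hu1 hv1 hq
  rw [hX, sub_self, zero_sub, norm_neg, F0_sub u v hu1 hv1, norm_mul, norm_mul, norm_mul,
    norm_pow, norm_pow, norm_inv, norm_inv] at hE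
  have hm1 : 0 < ‖u - v‖ := norm_pos_iff.2 (sub_ne_zero.2 huv)
  have hm2 : 0 < ‖1 - u * v‖ := norm_pos_iff.2 (sub_ne_zero.2 (Ne.symm huv'))
  have h0u : 0 < ‖1 - u‖ := norm_pos_iff.2 (sub_ne_zero.2 (Ne.symm hu1))
  have h0v : 0 < ‖1 - v‖ := norm_pos_iff.2 (sub_ne_zero.2 (Ne.symm hv1))
  have h1u : ‖1 - u‖ ≤ 1 := by
    refine (norm_sub_le_max _ _).trans ?_
    rw [norm_one, hu, max_self]
  have h1v : ‖1 - v‖ ≤ 1 := by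
    refine (norm_sub_le_max _ _).trans ?_
    rw [norm_one, hv, max_self]
  have hiu : 1 ≤ (‖1 - u‖⁻¹) ^ 2 := one_le_pow₀ ((one_le_inv₀ h0u).2 h1u)
  have hiv : 1 ≤ (‖1 - v‖⁻¹) ^ 2 := one_le_pow₀ ((one_le_inv₀ h0v).2 h1v)
  have hm : 0 < ‖u - v‖ * ‖1 - u * v‖ := mul_pos hm1 hm2
  have hge : ‖u - v‖ * ‖1 - u * v‖ ≤
      ‖u - v‖ * ‖1 - u * v‖ * (‖1 - u‖⁻¹) ^ 2 * (‖1 - v‖⁻¹) ^ 2 := by
    calc ‖u - v‖ * ‖1 - u * v‖ = ‖u - v‖ * ‖1 - u * v‖ * 1 * 1 := by ring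
      _ ≤ ‖u - v‖ * ‖1 - u * v‖ * (‖1 - u‖⁻¹) ^ 2 * (‖1 - v‖⁻¹) ^ 2 := by gcongr
  have hlt : ‖q‖ * (‖u - v‖ * ‖1 - u * v‖) < ‖u - v‖ * ‖1 - u * v‖ := by
    calc ‖q‖ * (‖u - v‖ * ‖1 - u * v‖) < 1 * (‖u - v‖ * ‖1 - u * v‖) := by gcongr
      _ = ‖u - v‖ * ‖1 - u * v‖ := one_mul _
  linarith

end Unit

/-! ### the open annulus -/

section Mid

variable (u v q : K) (hu0 : u ≠ 0) (hv0 : v ≠ 0) (hu : ‖u‖ < 1) (huv : ‖u‖ = ‖v‖)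
  (hqu : ‖q‖ < ‖u‖ ^ 2)

include hu0 hv0 hu huv hqu in
/-- **separation in the open annulus at equal norm, every residue characteristic.** -/
theorem XK_ne_of_mid' (hne : u ≠ v) : XK u q ≠ XK v q := by
  intro hX
  have hr0 : 0 < ‖u‖ := norm_pos_iff.2 hu0
  have hv : ‖v‖ < 1 := huv ▸ hu
  have hqu1 : ‖q‖ < ‖u‖ := by
    calc ‖q‖ < ‖u‖ ^ 2 := hqu
      _ = ‖u‖ * ‖u‖ := by ring
      _ ≤ ‖u‖ * 1 := by gcongr
      _ = ‖u‖ := mul_one _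
  have hqv1 : ‖q‖ < ‖v‖ := huv ▸ hqu1
  have hq1 : ‖q‖ < 1 := hqu1.trans hu
  have hu1 := ne_one_of_norm_lt u hu
  have hv1 := ne_one_of_norm_lt v hv
  have hρu := rho_mul_lt u q hu0 hu hqu1
  have hρv := rho_mul_lt v q hv0 hv hqv1
  have hL := XK_sub_lambert u v q hu0 hu1 hv0 hv1 hρu hρv
  rw [hX, sub_self, zero_sub] at hL
  -- the main term has norm `‖u - v‖`
  have hw : ‖u * v‖ < 1 := by
    rw [norm_mul]
    calc ‖u‖ * ‖v‖ < 1 * 1 := by gcongr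
      _ = 1 := one_mul 1
  have hmain : ‖F0 u - F0 v‖ = ‖u - v‖ := by
    rw [F0_sub u v hu1 hv1, norm_mul, norm_mul, norm_mul, norm_pow, norm_pow, norm_inv, norm_inv,
      norm_one_sub_of_lt hu, norm_one_sub_of_lt hv, norm_one_sub_of_lt hw, inv_one, one_pow,
      mul_one, mul_one, mul_one]
  set θ : ℝ := ‖q‖ / ‖u‖ ^ 2 with hθ
  have hθ1 : θ < 1 := (div_lt_one (pow_pos hr0 2)).2 hqu
  have hθ0 : 0 ≤ θ := div_nonneg (norm_nonneg q) (pow_pos hr0 2).le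
  have hm : 0 < ‖u - v‖ := norm_pos_iff.2 (sub_ne_zero.2 hne)
  -- the tail is `≤ ‖u - v‖ θ`
  have htail : ‖∑' d : ℕ+, (aX u d - aX v d) * (q ^ (d : ℕ) / (1 - q ^ (d : ℕ)))‖ ≤
      ‖u - v‖ * θ := by
    refine IsUltrametricDist.norm_tsum_le_of_forall_le_of_nonneg
      (mul_nonneg (norm_nonneg _) hθ0) fun d => ?_
    obtain ⟨k, hk⟩ : ∃ k, (d : ℕ) = k + 1 := ⟨(d : ℕ) - 1, by have := d.pos; omega⟩
    rw [aX_sub u v hu0 hv0, norm_mul, norm_mul, norm_mul, norm_Q hq1 d d.ne_zero]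
    have h1 : ‖((d : ℕ) : K)‖ ≤ 1 := norm_natCast_le_one _
    have h2 : ‖u ^ (d : ℕ) - v ^ (d : ℕ)‖ ≤ ‖u - v‖ * ‖u‖ ^ k := by
      have := norm_pow_sub_pow_le u v ‖u‖ le_rfl huv.symm.le d
      have hk' : (d : ℕ) - 1 = k := by omega
      rwa [hk'] at this
    have hinv : (1 : ℝ) ≤ (‖u‖⁻¹) ^ 2 := one_le_pow₀ ((one_le_inv₀ hr0).2 hu.le)
    have h3 : ‖1 - (u * v)⁻¹ ^ (d : ℕ)‖ ≤ ((‖u‖⁻¹) ^ 2) ^ (d : ℕ) := by
      refine (norm_sub_le_max _ _).trans (max_le ?_ ?_)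
      · rw [norm_one]
        exact one_le_pow₀ hinv
      · rw [norm_pow, norm_inv, norm_mul, ← huv, mul_inv, ← sq]
    have hqr : ‖q‖ / ‖u‖ < 1 := (div_lt_one hr0).2 hqu1
    have hqr0 : 0 ≤ ‖q‖ / ‖u‖ := div_nonneg (norm_nonneg q) hr0.le
    calc ‖((d : ℕ) : K)‖ * (‖u ^ (d : ℕ) - v ^ (d : ℕ)‖ * ‖1 - (u * v)⁻¹ ^ (d : ℕ)‖) *
          ‖q‖ ^ (d : ℕ)
        ≤ 1 * ((‖u - v‖ * ‖u‖ ^ k) * ((‖u‖⁻¹) ^ 2) ^ (d : ℕ)) * ‖q‖ ^ (d : ℕ) := by gcongr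
      _ = ‖u - v‖ * (θ * (‖q‖ / ‖u‖) ^ k) := by
          have hr0' : ‖u‖ ≠ 0 := hr0.ne'
          rw [hk, hθ, inv_pow, inv_pow, div_pow]
          field_simp
          ring
      _ ≤ ‖u - v‖ * (θ * 1) := by
          gcongr
          exact pow_le_one₀ hqr0 hqr.le
      _ = ‖u - v‖ * θ := by rw [mul_one]
  rw [← hL, norm_neg, hmain] at htail
  have : ‖u - v‖ * θ < ‖u - v‖ * 1 := by gcongr
  linarith

end Mid

end Fermat.Agent.MS.TATE.SepP3
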