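/-
Programme MS (S12, Mazur), chapter TATE, file InjP3 (helper3): **`X` is injective modulo `±` on the
`n`-torsion parameters of the Tate curve, for every odd `n` and EVERY residue characteristic** (no
hypothesis `‖n‖ = 1`; in particular `n = p^k` over a `p`-adic field, needed at a multiplicative
prime `p`).  Supersedes `InjN3.XK_inj`.  Proof: the separation lemmas of `SepP3` and the symmetry
`X(u_{-s}) = X(u_s)`.
-/
import Mathlib
import Fermat.Agent.MS.TATE.SepP3
import Fermat.Agent.MS.TATE.ParamN3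

set_option autoImplicit false
set_option linter.unusedSectionVars false
set_option linter.unusedVariables false

open PowerSeries

namespace Fermat.Agent.MS.TATE.InjP3

open Fermat.Agent.MZ.MOD
open TateFormal4 PSEval4 Regroup4 TateEval4 TateD4 TateLambert4 TateCurve4 TateSym4 TateNorm4
open TateInj4 (norm_XK_mid)
open TorsN3 InjN3 SepP3

variable {K : Type*} [NormedField K] [IsUltrametricDist K] [CompleteSpace K] [CharZero K]

variable {n : ℕ} [hn : NeZero n] (D : TorsDataN K n)

theorem zeta_pow_val_inj {a a' : ZMod n} (h : D.ζ ^ a.val = D.ζ ^ a'.val) : a = a' :=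
  ZMod.val_injective n (D.hζ.pow_inj (val_lt a) (val_lt a') h)

theorem add_eq_zero_of_zeta {a a' : ZMod n} (h : D.ζ ^ a.val * D.ζ ^ a'.val = 1) :
    a + a' = 0 := by
  rw [← pow_add] at h
  have hd := (D.hζ.pow_eq_one_iff_dvd _).1 h
  have := (ZMod.natCast_eq_zero_iff (a.val + a'.val) n).2 hd
  rwa [Nat.cast_add, natCast_val, natCast_val] at this

theorem XK_uT_neg' (s : ZMod n × ZMod n) (hs : s ≠ 0) :
    XK (uT D (-s)) D.q = XK (uT D s) D.q := by
  classical
  exact ParamN3.XK_uT_neg D s hs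

theorem uT_mu' (a : ZMod n) : uT D (a, 0) = D.ζ ^ a.val := by
  rw [uT]
  simp

/-- the unit circle. -/
theorem XK_inj_unit (a a' : ZMod n) (ha : a ≠ 0) (ha' : a' ≠ 0)
    (h : XK (uT D (a, 0)) D.q = XK (uT D (a', 0)) D.q) : a' = a ∨ a' = -a := by
  have hs : ((a, 0) : ZMod n × ZMod n) ≠ 0 := fun h0 => ha (congrArg Prod.fst h0)
  have hs' : ((a', 0) : ZMod n × ZMod n) ≠ 0 := fun h0 => ha' (congrArg Prod.fst h0)
  have hu : ‖uT D (a, 0)‖ = 1 := norm_uT_eq_one D (a, 0) rfl
  have hv : ‖uT D (a', 0)‖ = 1 := norm_uT_eq_one D (a', 0) rfl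
  have hu1 := uT_ne_one D _ hs
  have hv1 := uT_ne_one D _ hs'
  by_contra hcon
  push Not at hcon
  refine XK_ne_of_unit' _ _ D.q hu hv hu1 hv1 D.hq1 ?_ ?_ h
  · rw [uT_mu', uT_mu']
    exact fun h0 => hcon.1 (zeta_pow_val_inj D h0).symm
  · rw [uT_mu', uT_mu']
    intro h0
    apply hcon.2
    have := add_eq_zero_of_zeta D h0
    linear_combination this

/-- the normalised case in the open annulus: same second coordinate `b`, `2b < n`. -/
theorem XK_inj_small (a a' b : ZMod n) (hb : b ≠ 0) (h2b : 2 * b.val < n)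
    (h : XK (uT D (a, b)) D.q = XK (uT D (a', b)) D.q) : a' = a := by
  have hπ0 := norm_q'_pos D
  have hπ1 := norm_q'_lt_one D
  have hu0 := uT_ne_zero D (a, b)
  have hv0 := uT_ne_zero D (a', b)
  have hu := norm_uT_lt_one D (a, b) hb
  have huv : ‖uT D (a, b)‖ = ‖uT D (a', b)‖ := by rw [norm_uT, norm_uT]
  have hqu : ‖D.q‖ < ‖uT D (a, b)‖ ^ 2 := by
    rw [norm_uT, ← norm_q'_pow, ← pow_mul]
    exact pow_lt_pow_right_of_lt_one₀ hπ0 hπ1 (by simpa [mul_comm] using h2b)
  by_contra hne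
  refine XK_ne_of_mid' _ _ D.q hu0 hv0 hu huv hqu ?_ h
  intro h0
  apply hne
  have hq'b : D.q' ^ b.val ≠ 0 := pow_ne_zero _ (q'_ne_zero D)
  have : D.ζ ^ a.val = D.ζ ^ a'.val := by
    have h1 : D.ζ ^ a.val * D.q' ^ b.val = D.ζ ^ a'.val * D.q' ^ b.val := h0
    exact mul_right_cancel₀ hq'b h1
  exact (zeta_pow_val_inj D this).symm

/-- `‖X(u_s)‖ = ‖q'‖^b` when `0 < 2b < n`. -/
theorem norm_XK_small (s : ZMod n × ZMod n) (hb : s.2 ≠ 0) (h2b : 2 * s.2.val < n) :
    ‖XK (uT D s) D.q‖ = ‖D.q'‖ ^ s.2.val := by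
  have hπ0 := norm_q'_pos D
  have hπ1 := norm_q'_lt_one D
  have hu0 := uT_ne_zero D s
  have hu := norm_uT_lt_one D s hb
  have hqu := norm_q_lt_norm_uT D s
  have hlt : ‖D.q'‖ ^ (n - s.2.val) < ‖D.q'‖ ^ s.2.val :=
    pow_lt_pow_right_of_lt_one₀ hπ0 hπ1 (by omega)
  have hne : ‖uT D s‖ ≠ ‖D.q‖ / ‖uT D s‖ := by
    rw [norm_q_div_uT, norm_uT]
    exact hlt.ne'
  rw [norm_XK_mid (uT D s) D.q hu0 hu hqu hne, Mid_uT]
  congr 1
  exact min_eq_left (by omega)

/-- normalisation of the second coordinate into `(0, n/2)`. -/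
theorem exists_normalised (hodd : Odd n) (s : ZMod n × ZMod n) (hb : s.2 ≠ 0) :
    ∃ s' : ZMod n × ZMod n, (s' = s ∨ s' = -s) ∧ s'.2 ≠ 0 ∧ 2 * s'.2.val < n := by
  rcases Nat.lt_or_ge (2 * s.2.val) n with h | h
  · exact ⟨s, Or.inl rfl, hb, h⟩
  · refine ⟨-s, Or.inr rfl, ?_, ?_⟩
    · rw [Prod.snd_neg]
      exact neg_ne_zero.2 hb
    · rw [Prod.snd_neg]
      have := HomN3.val_neg_add s.2 hb
      obtain ⟨m, hm⟩ := hodd
      omega

/-- **`X` is injective modulo `±` on the torsion parameters** (odd level `n`, any residue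
characteristic). -/
theorem XK_inj (hodd : Odd n) (s t : ZMod n × ZMod n) (hs : s ≠ 0)
    (ht : t ≠ 0) (h : XK (uT D s) D.q = XK (uT D t) D.q) : t = s ∨ t = -s := by
  by_cases hb : s.2 = 0
  · by_cases hb' : t.2 = 0
    · obtain ⟨a, b⟩ := s
      obtain ⟨a', b'⟩ := t
      simp only at hb hb'
      subst hb hb'
      have ha : a ≠ 0 := fun h0 => hs (by rw [h0]; rfl)
      have ha' : a' ≠ 0 := fun h0 => ht (by rw [h0]; rfl)
      rcases XK_inj_unit D a a' ha ha' h with h1 | h1
      · left; rw [h1]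
      · right; rw [h1]; simp
    · exfalso
      have h1 := one_le_norm_XK_unit (uT D s) D.q (norm_uT_eq_one D s hb) (uT_ne_one D s hs) D.hq1
      have h2 := norm_XK_le_mid (uT D t) D.q (uT_ne_zero D _)
        (norm_uT_lt_one D t hb') (norm_q_lt_norm_uT D _)
      have h3 := Mid_lt_one (uT D t) D.q (uT_ne_zero D _)
        (norm_uT_lt_one D t hb') (norm_q_lt_norm_uT D _)
      rw [← h] at h2
      linarith
  · by_cases hb' : t.2 = 0
    · exfalso
      have h1 := one_le_norm_XK_unit (uT D t) D.q (norm_uT_eq_one D t hb') (uT_ne_one D t ht) D.hq1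
      have h2 := norm_XK_le_mid (uT D s) D.q (uT_ne_zero D _)
        (norm_uT_lt_one D s hb) (norm_q_lt_norm_uT D _)
      have h3 := Mid_lt_one (uT D s) D.q (uT_ne_zero D _)
        (norm_uT_lt_one D s hb) (norm_q_lt_norm_uT D _)
      rw [h] at h2
      linarith
    · -- both in the open annulus: normalise
      obtain ⟨s', hs', hs'b, hs'2⟩ := exists_normalised hodd s hb
      obtain ⟨t', ht', ht'b, ht'2⟩ := exists_normalised hodd t hb'
      have hXs : XK (uT D s') D.q = XK (uT D s) D.q := by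
        rcases hs' with h0 | h0
        · rw [h0]
        · rw [h0, XK_uT_neg' D s hs]
      have hXt : XK (uT D t') D.q = XK (uT D t) D.q := by
        rcases ht' with h0 | h0
        · rw [h0]
        · rw [h0, XK_uT_neg' D t ht]
      have hX : XK (uT D s') D.q = XK (uT D t') D.q := by rw [hXs, hXt, h]
      have hnorm := congrArg norm hX
      rw [norm_XK_small D s' hs'b hs'2, norm_XK_small D t' ht'b ht'2] at hnorm
      have hval : s'.2.val = t'.2.val := pow_q'_inj D hnorm
      have hsnd : t'.2 = s'.2 := (ZMod.val_injective n hval).symm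
      have hfst : t'.1 = s'.1 := by
        obtain ⟨a, b⟩ := s'
        obtain ⟨a', b'⟩ := t'
        simp only at hsnd hs'b hs'2
        subst hsnd
        exact XK_inj_small D a a' b' hs'b hs'2 hX
      have heq : t' = s' := Prod.ext hfst hsnd
      rcases hs' with h1 | h1 <;> rcases ht' with h2 | h2
      · left; rw [← h2, heq, h1]
      · right
        rw [h1] at heq
        rw [← heq, h2, neg_neg]
      · right
        rw [h2] at heq
        rw [heq, h1]
      · left
        rw [h1, h2] at heq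
        exact neg_injective heq

end Fermat.Agent.MS.TATE.InjP3
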