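/-
Programme MS (S12, Mazur), chapter TATE, file HomP3 (helper3): **the `n`-torsion parametrisation of
the Tate curve in EVERY residue characteristic**: for `n` prime to `6` (no hypothesis `‖n‖ = 1`, so
`n = p^k` over a `p`-adic field is allowed), `tP D : (ZMod n)² → E_q` is an injective homomorphism
onto the full `n`-torsion, and for `s ≠ 0` the point `tP D s` reduces to the singular point iff
`s.2 ≠ 0`; on the canonical subgroup `‖X(tP (a, 0))‖ = ‖1 - ζ^a‖⁻²`.
Supersedes the packaged section of `HomN3` and `ParamN3.redSingPt_tP_iff` (which assume `‖n‖ = 1`).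
-/
import Mathlib
import Fermat.Agent.MS.TATE.InjP3

set_option autoImplicit false
set_option linter.unusedSectionVars false
set_option linter.unusedVariables false
set_option linter.style.longLine false
set_option linter.deprecated false

noncomputable section

namespace Fermat.Agent.MS.TATE.HomP3

open Fermat.Agent.MZ.MOD
open Fermat.Agent.MZ.MOD.TateFormal4 Fermat.Agent.MZ.MOD.PSEval4 Fermat.Agent.MZ.MOD.TateEval4
  Fermat.Agent.MZ.MOD.TateCurve4 Fermat.Agent.MZ.MOD.TateSym4 Fermat.Agent.MZ.MOD.TateNorm4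
open Fermat.Agent.MZ.MOD.LTTransport5 (xOf xsOf RedSingPt)
open Fermat.Agent.MZ.MOD.RedType5 (M RedSing redSing_tateForm)
open TorsN3 InjN3
open HomN3 (tP_add n_nsmul odd_of_coprime_six)
open WeierstrassCurve.Affine

variable {K : Type*} [NormedField K] [IsUltrametricDist K] [CompleteSpace K] [CharZero K]
  [DecidableEq K]

variable {n : ℕ} [hn : NeZero n] (D : TorsDataN K n)

section Packaged

variable (h6 : Nat.Coprime n 6)

include h6 in
/-- additivity, unconditional form, every residue characteristic. -/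
theorem tP_add' (s t : ZMod n × ZMod n) : tP D (s + t) = tP D s + tP D t :=
  tP_add D h6 (InjP3.XK_inj D (odd_of_coprime_six h6)) s t

/-- the parametrisation as a homomorphism. -/
def tPHom : (ZMod n × ZMod n) →+ (tateCurve D.q).toAffine.Point :=
  AddMonoidHom.mk' (tP D) (tP_add' D h6)

theorem tPHom_apply (s : ZMod n × ZMod n) : tPHom D h6 s = tP D s := rfl

include h6 in
theorem tP_nsmul (k : ℕ) (s : ZMod n × ZMod n) : k • tP D s = tP D (k • s) :=
  ((tPHom D h6).map_nsmul k s).symm

include h6 in
theorem tP_injective : Function.Injective (tP D) := by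
  have h := (injective_iff_map_eq_zero (tPHom D h6)).2 fun s hs => by
    by_contra hne
    exact tP_ne_zero D s hne hs
  exact h

include h6 in
theorem n_nsmul_tP (s : ZMod n × ZMod n) : n • tP D s = 0 := by
  rw [tP_nsmul D h6, n_nsmul, tP_zero]

include h6 in
/-- **every `n`-torsion point of `E_q` is a `tP D s`.** -/
theorem exists_tP_of_torsion (Q : (tateCurve D.q).toAffine.Point)
    (hQ : n • Q = 0) : ∃ s, tP D s = Q := by
  have hoddp : Odd n := odd_of_coprime_six h6
  have hpK : (n : K) ≠ 0 := Nat.cast_ne_zero.2 (n_pos (n := n)).ne'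
  obtain ⟨hfin, hcard⟩ :=
    Fermat.Agent.DivPoly.CountFinal.torsion_finite_ncard_le (W := (tateCurve D.q).toAffine)
      hoddp hpK
  have hsub : Set.range (tP D) ⊆ {P : (tateCurve D.q).toAffine.Point | n • P = 0} := by
    rintro _ ⟨s, rfl⟩
    exact n_nsmul_tP D h6 s
  have hrange : (Set.range (tP D)).ncard = n ^ 2 := by
    rw [← Set.image_univ, Set.ncard_image_of_injective _ (tP_injective D h6), Set.ncard_univ,
      Nat.card_prod, Nat.card_zmod]
    ring
  have heq := Set.eq_of_subset_of_ncard_le hsub (by rw [hrange]; exact hcard) hfin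
  have hQ' : Q ∈ Set.range (tP D) := by
    rw [heq]
    exact hQ
  exact hQ'

include h6 in
/-- the `n`-torsion of `E_q` has exactly `n²` points. -/
theorem ncard_torsion :
    {P : (tateCurve D.q).toAffine.Point | n • P = 0}.ncard = n ^ 2 := by
  have heq : {P : (tateCurve D.q).toAffine.Point | n • P = 0} = Set.range (tP D) := by
    ext Q
    constructor
    · intro hQ
      exact exists_tP_of_torsion D h6 Q hQ
    · rintro ⟨s, rfl⟩
      exact n_nsmul_tP D h6 s
  rw [heq, ← Set.image_univ, Set.ncard_image_of_injective _ (tP_injective D h6),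
    Set.ncard_univ, Nat.card_prod, Nat.card_zmod]
  ring

/-- **the torsion parametrisation as an isomorphism onto the `n`-torsion subgroup.** -/
def tPEquiv : (ZMod n × ZMod n) ≃+
    (AddMonoidHom.ker (DistribMulAction.toAddMonoidHom (tateCurve D.q).toAffine.Point n)) :=
  AddEquiv.ofBijective
    ((tPHom D h6).codRestrict _ fun s => by
      rw [AddMonoidHom.mem_ker]
      exact n_nsmul_tP D h6 s)
    ⟨fun s t h => tP_injective D h6 (congrArg Subtype.val h), fun ⟨Q, hQ⟩ => by
      obtain ⟨s, hs⟩ := exists_tP_of_torsion D h6 Q (by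
        rw [AddMonoidHom.mem_ker] at hQ
        exact hQ)
      exact ⟨s, Subtype.ext hs⟩⟩

theorem tPEquiv_apply (s : ZMod n × ZMod n) : ((tPEquiv D h6 s : _) :
    (tateCurve D.q).toAffine.Point) = tP D s := rfl

end Packaged

/-! ### reduction of the torsion points, every residue characteristic -/

/-- on the canonical subgroup: `‖X(tP (a, 0))‖ = ‖1 - ζ^a‖⁻²`. -/
theorem norm_XK_mu (a : ZMod n) (ha : a ≠ 0) :
    ‖XK (uT D (a, 0)) D.q‖ = (‖1 - D.ζ ^ a.val‖⁻¹) ^ 2 := by
  have hs : ((a, 0) : ZMod n × ZMod n) ≠ 0 := fun h0 => ha (congrArg Prod.fst h0)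
  rw [SepP3.norm_XK_unit' (uT D (a, 0)) D.q (norm_uT_eq_one D (a, 0) rfl) (uT_ne_one D _ hs) D.hq1,
    InjP3.uT_mu']

/-- a nonzero point of the canonical subgroup does not reduce to the singular point. -/
theorem not_redSingPt_tP_of_snd_eq (s : ZMod n × ZMod n) (hs : s ≠ 0) (hb : s.2 = 0) :
    ¬ RedSingPt (tateCurve D.q) (tP D s) := by
  rw [ParamN3.redSingPt_tP D _ hs]
  rintro ⟨hx, -⟩
  have h1 := SepP3.one_le_norm_XK_unit (uT D s) D.q (norm_uT_eq_one D s hb) (uT_ne_one D s hs) D.hq1
  rw [M] at hx
  linarith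

/-- **the canonical-subgroup criterion, every residue characteristic**: for `s ≠ 0`, `tP D s`
reduces to the singular point iff `s.2 ≠ 0`. -/
theorem redSingPt_tP_iff (s : ZMod n × ZMod n) (hs : s ≠ 0) :
    RedSingPt (tateCurve D.q) (tP D s) ↔ s.2 ≠ 0 := by
  constructor
  · intro h hb
    exact not_redSingPt_tP_of_snd_eq D s hs hb h
  · exact ParamN3.redSingPt_tP_of_snd_ne D s

/-- for all `s` (including `0`): `tP D s` does not reduce to the singular point iff `s.2 = 0`. -/
theorem not_redSingPt_tP_iff (s : ZMod n × ZMod n) :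
    ¬ RedSingPt (tateCurve D.q) (tP D s) ↔ s.2 = 0 := by
  by_cases hs : s = 0
  · subst hs
    rw [tP_zero]
    exact ⟨fun _ => rfl, fun _ h => h⟩
  · rw [redSingPt_tP_iff D s hs, not_not]

end Fermat.Agent.MS.TATE.HomP3
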