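/-
Programme MS (S12), chapter TATE (helper4): **distribution relations for `D²X`, `D⁴X` on the Tate
curve.**  For `‖q‖ < ‖v‖ < 1` the Lambert forms combine to
`DʲX(v, q) = ∑_{m ≥ 1} mʲ (vᵐ + v⁻ᵐ qᵐ) / (1 - qᵐ)` (`X2K_comb`, `X4K_comb`), and for a primitive
`d`-th root of unity `ζ`
`∑_{l < d} D²X(ζˡ v, q) = d⁴ D²X(vᵈ, qᵈ)`, `∑_{l < d} D⁴X(ζˡ v, q) = d⁶ D⁴X(vᵈ, qᵈ)`
(`distrib_X2K`, `distrib_X4K`).
-/
import Mathlib
import Fermat.Agent.MZ.MOD.TateVelu4
import Fermat.Agent.MZ.MOD.TateSym4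

set_option autoImplicit false
set_option linter.unusedSectionVars false
set_option linter.unusedVariables false

open PowerSeries

namespace Fermat.Agent.MS.TATE.Distrib4

open Fermat.Agent.MZ.MOD
open TateFormal4 PSEval4 Regroup4 TateEval4 TateD4 TateLambert4 TateCurve4 TateVelu4 TateSym4

variable {K : Type*} [NormedField K] [CompleteSpace K]

/-- the general term of the combined Lambert series. -/
noncomputable def cterm (j : ℕ) (v q : K) (m : ℕ) : K :=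
  (m : K) ^ j * ((v ^ m + v⁻¹ ^ m * q ^ m) / (1 - q ^ m))

/-- the combined Lambert series. -/
noncomputable def LJ (j : ℕ) (v q : K) : K := ∑' m : ℕ+, cterm j v q m

section Comb

variable (v q : K) (h0 : v ≠ 0) (hv : ‖v‖ < 1) (hqv : ‖q‖ < ‖v‖)

include h0 hv hqv in
theorem summable_cterm (j : ℕ) (hj : 0 < j) : Summable fun m : ℕ+ => cterm j v q m :=
  (combine_lambert j hj v q h0 hv (rho_mul_lt v q h0 hv hqv)).1

include h0 hv hqv in
theorem X2K_comb : X2K v q = LJ 3 v q := by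
  have h1 : v ≠ 1 := ne_one_of_norm_lt v hv
  have hρq := rho_mul_lt v q h0 hv hqv
  rw [X2K_lambert v q h0 h1 hρq, P2, ← tsum_pow3 hv,
    (combine_lambert 3 (by norm_num) v q h0 hv hρq).2]
  rfl

include h0 hv hqv in
theorem X4K_comb : X4K v q = LJ 5 v q := by
  have h1 : v ≠ 1 := ne_one_of_norm_lt v hv
  have hρq := rho_mul_lt v q h0 hv hqv
  rw [X4K_lambert v q h0 h1 hρq, P4, ← tsum_pow5 hv,
    (combine_lambert 5 (by norm_num) v q h0 hv hρq).2]
  rfl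

end Comb

/-! ### sums over roots of unity -/

section Roots

variable (ζ : K) (d : ℕ) (hd : 0 < d) (hζ : IsPrimitiveRoot ζ d)

include hd hζ in
theorem sum_range_pow_root (m : ℕ) :
    ∑ l ∈ Finset.range d, (ζ ^ l) ^ m = if d ∣ m then (d : K) else 0 := by
  have e1 : ∀ l : ℕ, (ζ ^ l) ^ m = (ζ ^ m) ^ l := fun l => pow_right_comm ζ l m
  simp_rw [e1]
  split_ifs with hm
  · rw [(hζ.pow_eq_one_iff_dvd m).2 hm]
    simp
  · have hne : ζ ^ m ≠ 1 := fun h => hm ((hζ.pow_eq_one_iff_dvd m).1 h)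
    rw [geom_sum_eq hne, ← pow_mul, mul_comm, pow_mul, hζ.pow_eq_one, one_pow, sub_self,
      zero_div]

include hd hζ in
/-- the finite sum of the general terms over the `μ_d`-coset of `v`. -/
theorem sum_cterm (j : ℕ) (v q : K) (m : ℕ) :
    ∑ l ∈ Finset.range d, cterm j (ζ ^ l * v) q m =
      if d ∣ m then (d : K) * cterm j v q m else 0 := by
  have h1 := sum_range_pow_root ζ d hd hζ m
  have h2 := sum_range_pow_root ζ⁻¹ d hd hζ.inv m
  have e : ∀ l : ℕ, cterm j (ζ ^ l * v) q m =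
      (m : K) ^ j * (((ζ ^ l) ^ m * v ^ m + (ζ⁻¹ ^ l) ^ m * (v⁻¹ ^ m * q ^ m)) / (1 - q ^ m)) := by
    intro l
    rw [cterm, mul_pow, mul_inv, mul_pow, inv_pow ζ l]
    ring
  simp_rw [e]
  rw [← Finset.mul_sum, ← Finset.sum_div, Finset.sum_add_distrib, ← Finset.sum_mul,
    ← Finset.sum_mul, h1, h2]
  split_ifs with hm
  · rw [cterm]
    ring
  · rw [zero_mul, zero_mul, add_zero, zero_div, mul_zero]

end Roots

/-! ### reindexing the multiples of `d` -/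

theorem tsum_pnat_dvd (d : ℕ) (hd : 0 < d) (f : ℕ → K) :
    ∑' m : ℕ+, (if d ∣ (m : ℕ) then f m else 0) = ∑' m : ℕ+, f (d * (m : ℕ)) := by
  set dd : ℕ+ := ⟨d, hd⟩ with hdd
  have hddc : (dd : ℕ) = d := rfl
  set g : ℕ+ → ℕ+ := fun e => dd * e with hg
  have hginj : Function.Injective g := fun a b h => mul_left_cancel h
  set F : ℕ+ → K := fun m => if d ∣ (m : ℕ) then f m else 0 with hF
  have hsupp : Function.support F ⊆ Set.range g := by
    intro m hm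
    rw [Function.mem_support, hF] at hm
    have hmem : d ∣ (m : ℕ) := by
      by_contra hcon
      simp only [if_neg hcon] at hm
      exact hm rfl
    obtain ⟨e, he⟩ := hmem
    have he0 : 0 < e := by
      rcases Nat.eq_zero_or_pos e with rfl | h
      · rw [mul_zero] at he
        exact absurd he m.ne_zero
      · exact h
    set ee : ℕ+ := ⟨e, he0⟩ with hee
    have heec : (ee : ℕ) = e := rfl
    refine ⟨ee, ?_⟩
    apply PNat.coe_injective
    rw [hg]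
    show ((dd * ee : ℕ+) : ℕ) = (m : ℕ)
    rw [PNat.mul_coe, hddc, heec]
    exact he.symm
  rw [← hginj.tsum_eq hsupp]
  refine tsum_congr fun e => ?_
  have hge : ((g e : ℕ+) : ℕ) = d * (e : ℕ) := by
    rw [hg]
    show ((dd * e : ℕ+) : ℕ) = d * (e : ℕ)
    rw [PNat.mul_coe, hddc]
  rw [hF]
  simp only
  rw [hge, if_pos (dvd_mul_right d _)]

/-! ### the distribution relations -/

section Distrib

variable (ζ : K) (d : ℕ) (hd : 0 < d) (hζ : IsPrimitiveRoot ζ d)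
  (v q : K) (h0 : v ≠ 0) (hv : ‖v‖ < 1) (hqv : ‖q‖ < ‖v‖)

include hd hζ in
theorem norm_root : ‖ζ‖ = 1 := by
  have h := congrArg norm hζ.pow_eq_one
  rw [norm_pow, norm_one] at h
  exact (pow_eq_one_iff_of_nonneg (norm_nonneg ζ) hd.ne').1 h

theorem cterm_mul (j : ℕ) (m : ℕ) :
    cterm j v q (d * m) = (d : K) ^ j * cterm j (v ^ d) (q ^ d) m := by
  rw [cterm, cterm, Nat.cast_mul, mul_pow, pow_mul, pow_mul, pow_mul, inv_pow v d]
  ring

include hd hζ h0 hv hqv in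
/-- **the distribution relation** for the combined Lambert series. -/
theorem distrib_LJ (j : ℕ) (hj : 0 < j) :
    ∑ l ∈ Finset.range d, LJ j (ζ ^ l * v) q = (d : K) ^ (j + 1) * LJ j (v ^ d) (q ^ d) := by
  have hn := norm_root ζ d hd hζ
  have hfacts : ∀ l : ℕ, ζ ^ l * v ≠ 0 ∧ ‖ζ ^ l * v‖ < 1 ∧ ‖q‖ < ‖ζ ^ l * v‖ := by
    intro l
    have hz : ζ ^ l ≠ 0 := pow_ne_zero l (hζ.ne_zero hd.ne')
    have e : ‖ζ ^ l * v‖ = ‖v‖ := by rw [norm_mul, norm_pow, hn, one_pow, one_mul]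
    exact ⟨mul_ne_zero hz h0, by rwa [e], by rwa [e]⟩
  have hsum : ∀ l ∈ Finset.range d, Summable fun m : ℕ+ => cterm j (ζ ^ l * v) q m :=
    fun l _ => summable_cterm _ q (hfacts l).1 (hfacts l).2.1 (hfacts l).2.2 j hj
  unfold LJ
  rw [← Summable.tsum_finsetSum hsum]
  simp_rw [sum_cterm ζ d hd hζ j v q]
  rw [tsum_pnat_dvd d hd (fun m => (d : K) * cterm j v q m)]
  simp_rw [cterm_mul d v q j]
  rw [tsum_mul_left, tsum_mul_left, pow_succ]
  ring

include hd hζ h0 hv hqv in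
/-- **distribution relation for `D²X`.** -/
theorem distrib_X2K :
    ∑ l ∈ Finset.range d, X2K (ζ ^ l * v) q = (d : K) ^ 4 * X2K (v ^ d) (q ^ d) := by
  have hn := norm_root ζ d hd hζ
  have hv0 : 0 < ‖v‖ := norm_pos_iff.2 h0
  have hvd0 : v ^ d ≠ 0 := pow_ne_zero d h0
  have hvd1 : ‖v ^ d‖ < 1 := by
    rw [norm_pow]
    exact pow_lt_one₀ hv0.le hv hd.ne'
  have hqvd : ‖q ^ d‖ < ‖v ^ d‖ := by
    rw [norm_pow, norm_pow]
    exact pow_lt_pow_left₀ hqv (norm_nonneg q) hd.ne'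
  rw [X2K_comb (v ^ d) (q ^ d) hvd0 hvd1 hqvd, ← distrib_LJ ζ d hd hζ v q h0 hv hqv 3 (by norm_num)]
  refine Finset.sum_congr rfl fun l _ => ?_
  have hz : ζ ^ l ≠ 0 := pow_ne_zero l (hζ.ne_zero hd.ne')
  have e : ‖ζ ^ l * v‖ = ‖v‖ := by rw [norm_mul, norm_pow, hn, one_pow, one_mul]
  exact X2K_comb _ q (mul_ne_zero hz h0) (by rwa [e]) (by rwa [e])

include hd hζ h0 hv hqv in
/-- **distribution relation for `D⁴X`.** -/
theorem distrib_X4K :
    ∑ l ∈ Finset.range d, X4K (ζ ^ l * v) q = (d : K) ^ 6 * X4K (v ^ d) (q ^ d) := by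
  have hn := norm_root ζ d hd hζ
  have hv0 : 0 < ‖v‖ := norm_pos_iff.2 h0
  have hvd0 : v ^ d ≠ 0 := pow_ne_zero d h0
  have hvd1 : ‖v ^ d‖ < 1 := by
    rw [norm_pow]
    exact pow_lt_one₀ hv0.le hv hd.ne'
  have hqvd : ‖q ^ d‖ < ‖v ^ d‖ := by
    rw [norm_pow, norm_pow]
    exact pow_lt_pow_left₀ hqv (norm_nonneg q) hd.ne'
  rw [X4K_comb (v ^ d) (q ^ d) hvd0 hvd1 hqvd, ← distrib_LJ ζ d hd hζ v q h0 hv hqv 5 (by norm_num)]
  refine Finset.sum_congr rfl fun l _ => ?_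
  have hz : ζ ^ l ≠ 0 := pow_ne_zero l (hζ.ne_zero hd.ne')
  have e : ‖ζ ^ l * v‖ = ‖v‖ := by rw [norm_mul, norm_pow, hn, one_pow, one_mul]
  exact X4K_comb _ q (mul_ne_zero hz h0) (by rwa [e]) (by rwa [e])

end Distrib

end Fermat.Agent.MS.TATE.Distrib4
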