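/-
Programme MS (S12), chapter TATE (helper4): **Vélu's quotient of the Tate curve by an arbitrary finite
subgroup of mixed type.**  Let `d, e ≥ 1`, `ζ` a primitive `d`-th root of unity, `u₀ ∈ Kˣ` with
`(u₀ᵈ)ᵉ = qᵈ` (so `‖u₀‖ᵉ = ‖q‖`; e.g. `u₀ᵉ = ζ q`).  The set `C = {ζˡ u₀ⁱ : l < d, i < e}` is (a set of
representatives in the fundamental annulus of) a subgroup of order `d e` of `E_q` with `C ∩ μ = μ_d`.
If `xs` is the two-to-one image of `C ∖ {1}` under `X(·, q)`, then Vélu's quotient curve has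
`c₄' = d⁴ E₄(W)`, `c₆' = -d⁶ E₆(W)` with `W = u₀ᵈ`, `Wᵉ = qᵈ`; hence `veluJ (tateCurve q) xs = jK W`
(`veluJ_mixed`).  Special cases: `e = 1` (`C = μ_d`, `W = qᵈ`), `d = 1` (`C = ⟨u₀⟩`, `u₀ᵉ = q`, `W = u₀`).
-/
import Mathlib
import Fermat.Agent.MS.TATE.Distrib4
import Fermat.Agent.MZ.MOD.RootConst0

set_option autoImplicit false
set_option linter.unusedSectionVars false
set_option linter.unusedVariables false

open PowerSeries

namespace Fermat.Agent.MS.TATE.VeluMix4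

open Fermat.Agent.MZ.MOD
open TateFormal4 PSEval4 Regroup4 TateEval4 TateD4 TateLambert4 TateCurve4 TateVelu4 TateSym4 VeluDef4
open Fermat.Agent.MS.TATE.Distrib4

variable {K : Type*} [NormedField K] [CompleteSpace K]

/-! ### Vélu's `c₄`, `c₆` on the Tate curve, general index type -/

/-- `xs` is the two-to-one image of `k ↦ x k`, `k ∈ I` (any index type). -/
def TwoToOneG {ι : Type*} (xs : Finset K) (I : Finset ι) (x : ι → K) : Prop :=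
  ∀ g : K → K, 2 * ∑ y ∈ xs, g y = ∑ k ∈ I, g (x k)

section VeluG

variable [CharZero K] {ι : Type*} (q : K) (hq : ‖q‖ < 1) (xs : Finset K) (I : Finset ι)
  (us : ι → K)
  (hu0 : ∀ k ∈ I, us k ≠ 0) (hu1 : ∀ k ∈ I, us k ≠ 1) (hρ : ∀ k ∈ I, rho (us k) * ‖q‖ < 1)
  (hxs : TwoToOneG xs I (fun k => XK (us k) q))

include hu0 hu1 hρ hxs in
theorem two_mul_veluT_G : 2 * veluT (tateCurve q) xs = ∑ k ∈ I, X2K (us k) q := by
  rw [veluT, hxs (fun x => 6 * x ^ 2 + (tateCurve q).b₂ * x + (tateCurve q).b₄)]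
  refine Finset.sum_congr rfl fun k hk => ?_
  rw [X2K_eq_poly (us k) q (hu0 k hk) (hu1 k hk) (hρ k hk), tateCurve_b₂, tateCurve_b₄]
  ring

include hu0 hu1 hρ hxs in
theorem twentyfour_mul_veluW_G :
    24 * veluW (tateCurve q) xs = ∑ k ∈ I, (X4K (us k) q - X2K (us k) q) := by
  have h := hxs (fun x => 10 * x ^ 3 + 2 * (tateCurve q).b₂ * x ^ 2 + 3 * (tateCurve q).b₄ * x +
    (tateCurve q).b₆)
  have h2 : 24 * veluW (tateCurve q) xs = 12 * (2 * veluW (tateCurve q) xs) := by ring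
  rw [h2, veluW, h, Finset.mul_sum]
  refine Finset.sum_congr rfl fun k hk => ?_
  rw [X4K_eq_poly (us k) q (hu0 k hk) (hu1 k hk) (hρ k hk), tateCurve_b₂, tateCurve_b₄,
    tateCurve_b₆]
  ring

include hq hu0 hu1 hρ hxs in
theorem velu_c₄_G :
    (veluCurve (tateCurve q) xs).c₄ = E4K q + 120 * ∑ k ∈ I, X2K (us k) q := by
  rw [veluCurve_c₄, tateCurve_c₄ q hq, ← two_mul_veluT_G q xs I us hu0 hu1 hρ hxs]
  ring

include hq hu0 hu1 hρ hxs in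
theorem velu_c₆_G :
    (veluCurve (tateCurve q) xs).c₆ = -E6K q + 252 * ∑ k ∈ I, X4K (us k) q := by
  have h1 := two_mul_veluT_G q xs I us hu0 hu1 hρ hxs
  have h2 := twentyfour_mul_veluW_G q xs I us hu0 hu1 hρ hxs
  rw [Finset.sum_sub_distrib] at h2
  rw [veluCurve_c₆, tateCurve_c₆ q hq, tateCurve_b₂]
  linear_combination (252 : K) * h1 + (252 : K) * h2

end VeluG

/-! ### the two pure cases, including the trivial subgroups -/

section Pure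

theorem X2K_one (q : K) : X2K 1 q = 0 := by
  unfold X2K
  rw [dif_neg]
  exact fun h => h.2 rfl

theorem X4K_one (q : K) : X4K 1 q = 0 := by
  unfold X4K
  rw [dif_neg]
  exact fun h => h.2 rfl

variable (ζ : K) (d : ℕ) (hd : 0 < d) (hζ : IsPrimitiveRoot ζ d)

include hd hζ in
theorem sum_X2K_mu' (q : K) (hq : ‖q‖ < 1) :
    ∑ l ∈ Finset.Ico 1 d, X2K (ζ ^ l) q =
      ∑ l ∈ Finset.Ico 1 d, P2 ((1 - ζ ^ l)⁻¹) + 2 * ((d : K) ^ 4 * sK 3 (q ^ d) - sK 3 q) := by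
  rcases Nat.lt_or_ge d 2 with h | h
  · have h1 : d = 1 := by omega
    subst h1
    simp
  · exact sum_X2K_mu ζ d h hζ q hq

include hd hζ in
theorem sum_X4K_mu' (q : K) (hq : ‖q‖ < 1) :
    ∑ l ∈ Finset.Ico 1 d, X4K (ζ ^ l) q =
      ∑ l ∈ Finset.Ico 1 d, P4 ((1 - ζ ^ l)⁻¹) + 2 * ((d : K) ^ 6 * sK 5 (q ^ d) - sK 5 q) := by
  rcases Nat.lt_or_ge d 2 with h | h
  · have h1 : d = 1 := by omega
    subst h1
    simp
  · exact sum_X4K_mu ζ d h hζ q hq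

variable (W : K) (hW0 : W ≠ 0) (hW1 : ‖W‖ < 1) (e : ℕ) (he : 0 < e)

include hW0 hW1 he in
theorem sum_X2K_root' :
    ∑ i ∈ Finset.Ico 1 e, X2K (W ^ i) (W ^ e) = 2 * (sK 3 W - sK 3 (W ^ e)) := by
  rcases Nat.lt_or_ge e 2 with h | h
  · have h1 : e = 1 := by omega
    subst h1
    simp
  · exact sum_X2K_root W hW0 hW1 e h

include hW0 hW1 he in
theorem sum_X4K_root' :
    ∑ i ∈ Finset.Ico 1 e, X4K (W ^ i) (W ^ e) = 2 * (sK 5 W - sK 5 (W ^ e)) := by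
  rcases Nat.lt_or_ge e 2 with h | h
  · have h1 : e = 1 := by omega
    subst h1
    simp
  · exact sum_X4K_root W hW0 hW1 e h

end Pure

/-! ### the mixed subgroups -/

/-- the index set of `C ∖ {1}`. -/
def Idx (d e : ℕ) : Finset (ℕ × ℕ) := ((Finset.range d) ×ˢ (Finset.range e)).erase (0, 0)

/-- the parametrisation `(l, i) ↦ ζˡ u₀ⁱ`. -/
def par (ζ u₀ : K) (x : ℕ × ℕ) : K := ζ ^ x.1 * u₀ ^ x.2

theorem mem_Idx {d e : ℕ} {x : ℕ × ℕ} : x ∈ Idx d e ↔ x ≠ (0, 0) ∧ x.1 < d ∧ x.2 < e := by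
  rw [Idx, Finset.mem_erase, Finset.mem_product, Finset.mem_range, Finset.mem_range]

section Mixed

variable (ζ : K) (d e : ℕ) (hd : 0 < d) (he : 0 < e) (hζ : IsPrimitiveRoot ζ d)
  (q u₀ : K) (hq : ‖q‖ < 1) (hu : u₀ ≠ 0) (hW : (u₀ ^ d) ^ e = q ^ d)

include hd hW in
theorem norm_u₀_pow : ‖u₀‖ ^ e = ‖q‖ := by
  have h := congrArg norm hW
  rw [norm_pow, norm_pow, norm_pow, ← pow_mul, mul_comm, pow_mul] at h
  exact (pow_left_inj₀ (pow_nonneg (norm_nonneg u₀) e) (norm_nonneg q) hd.ne').1 h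

include hd he hq hW in
theorem norm_u₀_lt_one : ‖u₀‖ < 1 := by
  by_contra hcon
  rw [not_lt] at hcon
  have h1 : 1 ≤ ‖u₀‖ ^ e := one_le_pow₀ hcon
  rw [norm_u₀_pow d e hd q u₀ hW] at h1
  exact absurd hq (not_lt.2 h1)

include hd he hq hu hW in
/-- the points `u₀ⁱ`, `1 ≤ i < e`, lie in the open annulus. -/
theorem annulus_facts (i : ℕ) (hi : i ∈ Finset.Ico 1 e) :
    u₀ ^ i ≠ 0 ∧ ‖u₀ ^ i‖ < 1 ∧ ‖q‖ < ‖u₀ ^ i‖ := by
  rw [Finset.mem_Ico] at hi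
  have h0 : 0 < ‖u₀‖ := norm_pos_iff.2 hu
  have h1 := norm_u₀_lt_one d e hd he q u₀ hq hW
  refine ⟨pow_ne_zero i hu, ?_, ?_⟩
  · rw [norm_pow]
    exact pow_lt_one₀ h0.le h1 (by omega)
  · rw [norm_pow, ← norm_u₀_pow d e hd q u₀ hW]
    exact pow_lt_pow_right_of_lt_one₀ h0 h1 hi.2

include hd he hζ hq hu hW in
theorem par_facts (x : ℕ × ℕ) (hx : x ∈ Idx d e) :
    par ζ u₀ x ≠ 0 ∧ par ζ u₀ x ≠ 1 ∧ rho (par ζ u₀ x) * ‖q‖ < 1 := by
  obtain ⟨hne, hl, hi⟩ := mem_Idx.1 hx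
  obtain ⟨l, i⟩ := x
  simp only at hl hi
  have hn := norm_root ζ d hd hζ
  have hz : ζ ^ l ≠ 0 := pow_ne_zero l (hζ.ne_zero hd.ne')
  rcases Nat.eq_zero_or_pos i with rfl | hipos
  · have hl0 : l ≠ 0 := fun h => hne (by rw [h])
    have e1 : par ζ u₀ (l, 0) = ζ ^ l := by
      rw [par]
      simp
    rw [e1]
    refine ⟨hz, hζ.pow_ne_one_of_pos_of_lt hl0 hl, ?_⟩
    have hr : rho (ζ ^ l) = 1 := by
      unfold rho
      rw [norm_pow, hn, one_pow, inv_one, max_self]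
    rw [hr, one_mul]
    exact hq
  · obtain ⟨a0, a1, a2⟩ := annulus_facts d e hd he q u₀ hq hu hW i (Finset.mem_Ico.2 ⟨hipos, hi⟩)
    have e1 : ‖par ζ u₀ (l, i)‖ = ‖u₀ ^ i‖ := by
      rw [par]
      simp only
      rw [norm_mul, norm_pow, hn, one_pow, one_mul]
    have h0 : par ζ u₀ (l, i) ≠ 0 := mul_ne_zero hz a0
    have h1 : ‖par ζ u₀ (l, i)‖ < 1 := by rwa [e1]
    refine ⟨h0, ne_one_of_norm_lt _ h1, rho_mul_lt _ q h0 h1 (by rwa [e1])⟩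

include hd he hζ hq hu hW in
/-- **the Vélu sum of `D²X` over a mixed subgroup.** -/
theorem sum_mixed_X2K :
    ∑ x ∈ Idx d e, X2K (par ζ u₀ x) q =
      ∑ l ∈ Finset.Ico 1 d, P2 ((1 - ζ ^ l)⁻¹) + 2 * ((d : K) ^ 4 * sK 3 (u₀ ^ d) - sK 3 q) := by
  have hW0 : u₀ ^ d ≠ 0 := pow_ne_zero d hu
  have hW1 : ‖u₀ ^ d‖ < 1 := by
    rw [norm_pow]
    exact pow_lt_one₀ (norm_nonneg u₀) (norm_u₀_lt_one d e hd he q u₀ hq hW) hd.ne'
  have h00 : X2K (par ζ u₀ (0, 0)) q = 0 := by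
    rw [par]
    simp only [pow_zero, mul_one]
    exact X2K_one q
  rw [Idx, Finset.sum_erase (Finset.range d ×ˢ Finset.range e)
    (f := fun x => X2K (par ζ u₀ x) q) (a := (0, 0)) h00, Finset.sum_product_right,
    Finset.range_eq_Ico, Finset.sum_eq_sum_Ico_succ_bot he]
  have hfirst : ∑ l ∈ Finset.range d, X2K (par ζ u₀ (l, 0)) q =
      ∑ l ∈ Finset.Ico 1 d, P2 ((1 - ζ ^ l)⁻¹) + 2 * ((d : K) ^ 4 * sK 3 (q ^ d) - sK 3 q) := by
    rw [Finset.range_eq_Ico, Finset.sum_eq_sum_Ico_succ_bot hd, h00, zero_add,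
      ← sum_X2K_mu' ζ d hd hζ q hq]
    refine Finset.sum_congr rfl fun l _ => ?_
    rw [par]
    simp
  have hinner : ∀ i ∈ Finset.Ico (0 + 1) e, ∑ l ∈ Finset.range d, X2K (par ζ u₀ (l, i)) q =
      (d : K) ^ 4 * X2K ((u₀ ^ d) ^ i) ((u₀ ^ d) ^ e) := by
    intro i hi
    rw [zero_add] at hi
    obtain ⟨a0, a1, a2⟩ := annulus_facts d e hd he q u₀ hq hu hW i hi
    rw [hW, pow_right_comm u₀ d i, ← distrib_X2K ζ d hd hζ (u₀ ^ i) q a0 a1 a2]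
    rfl
  rw [hfirst, Finset.sum_congr rfl hinner, ← Finset.mul_sum, zero_add,
    sum_X2K_root' (u₀ ^ d) hW0 hW1 e he, hW]
  ring

include hd he hζ hq hu hW in
/-- **the Vélu sum of `D⁴X` over a mixed subgroup.** -/
theorem sum_mixed_X4K :
    ∑ x ∈ Idx d e, X4K (par ζ u₀ x) q =
      ∑ l ∈ Finset.Ico 1 d, P4 ((1 - ζ ^ l)⁻¹) + 2 * ((d : K) ^ 6 * sK 5 (u₀ ^ d) - sK 5 q) := by
  have hW0 : u₀ ^ d ≠ 0 := pow_ne_zero d hu
  have hW1 : ‖u₀ ^ d‖ < 1 := by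
    rw [norm_pow]
    exact pow_lt_one₀ (norm_nonneg u₀) (norm_u₀_lt_one d e hd he q u₀ hq hW) hd.ne'
  have h00 : X4K (par ζ u₀ (0, 0)) q = 0 := by
    rw [par]
    simp only [pow_zero, mul_one]
    exact X4K_one q
  rw [Idx, Finset.sum_erase (Finset.range d ×ˢ Finset.range e)
    (f := fun x => X4K (par ζ u₀ x) q) (a := (0, 0)) h00, Finset.sum_product_right,
    Finset.range_eq_Ico, Finset.sum_eq_sum_Ico_succ_bot he]
  have hfirst : ∑ l ∈ Finset.range d, X4K (par ζ u₀ (l, 0)) q =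
      ∑ l ∈ Finset.Ico 1 d, P4 ((1 - ζ ^ l)⁻¹) + 2 * ((d : K) ^ 6 * sK 5 (q ^ d) - sK 5 q) := by
    rw [Finset.range_eq_Ico, Finset.sum_eq_sum_Ico_succ_bot hd, h00, zero_add,
      ← sum_X4K_mu' ζ d hd hζ q hq]
    refine Finset.sum_congr rfl fun l _ => ?_
    rw [par]
    simp
  have hinner : ∀ i ∈ Finset.Ico (0 + 1) e, ∑ l ∈ Finset.range d, X4K (par ζ u₀ (l, i)) q =
      (d : K) ^ 6 * X4K ((u₀ ^ d) ^ i) ((u₀ ^ d) ^ e) := by
    intro i hi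
    rw [zero_add] at hi
    obtain ⟨a0, a1, a2⟩ := annulus_facts d e hd he q u₀ hq hu hW i hi
    rw [hW, pow_right_comm u₀ d i, ← distrib_X4K ζ d hd hζ (u₀ ^ i) q a0 a1 a2]
    rfl
  rw [hfirst, Finset.sum_congr rfl hinner, ← Finset.mul_sum, zero_add,
    sum_X4K_root' (u₀ ^ d) hW0 hW1 e he, hW]
  ring

variable [CharZero K]

include hd he hζ hq hu hW in
/-- **Vélu's quotient of `E_q` by a mixed subgroup has `c₄' = d⁴ E₄(W)`, `c₆' = -d⁶ E₆(W)`,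
`W = u₀ᵈ`.** -/
theorem velu_mixed (xs : Finset K)
    (hxs : TwoToOneG xs (Idx d e) (fun x => XK (par ζ u₀ x) q)) :
    (veluCurve (tateCurve q) xs).c₄ = (d : K) ^ 4 * E4K (u₀ ^ d) ∧
      (veluCurve (tateCurve q) xs).c₆ = -((d : K) ^ 6 * E6K (u₀ ^ d)) := by
  have f := par_facts ζ d e hd he hζ q u₀ hq hu hW
  have hS4 : ∑ l ∈ Finset.Ico 1 d, P2 ((1 - ζ ^ l)⁻¹) = ((d : K) ^ 4 - 1) / 120 :=
    RootConst0.sum_S4 hd hζ
  have hS6 : ∑ l ∈ Finset.Ico 1 d, P4 ((1 - ζ ^ l)⁻¹) = -((d : K) ^ 6 - 1) / 252 :=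
    RootConst0.sum_S6 hd hζ
  constructor
  · rw [velu_c₄_G q hq xs (Idx d e) (par ζ u₀) (fun x hx => (f x hx).1) (fun x hx => (f x hx).2.1)
      (fun x hx => (f x hx).2.2) hxs, sum_mixed_X2K ζ d e hd he hζ q u₀ hq hu hW, hS4, E4K, E4K]
    ring
  · rw [velu_c₆_G q hq xs (Idx d e) (par ζ u₀) (fun x hx => (f x hx).1) (fun x hx => (f x hx).2.1)
      (fun x hx => (f x hx).2.2) hxs, sum_mixed_X4K ζ d e hd he hζ q u₀ hq hu hW, hS6, E6K, E6K]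
    ring

include hd he hζ hq hu hW in
/-- **Vélu's `j` of the quotient of `E_q` by a mixed subgroup is `j(u₀ᵈ)`.** -/
theorem veluJ_mixed (xs : Finset K)
    (hxs : TwoToOneG xs (Idx d e) (fun x => XK (par ζ u₀ x) q)) :
    veluJ (tateCurve q) xs = jK (u₀ ^ d) := by
  obtain ⟨e4, e6⟩ := velu_mixed ζ d e hd he hζ q u₀ hq hu hW xs hxs
  have hd0 : (d : K) ≠ 0 := Nat.cast_ne_zero.2 hd.ne'
  rw [veluJ_eq, e4, e6, jK]
  have e' : ((d : K) ^ 4 * E4K (u₀ ^ d)) ^ 3 - (-((d : K) ^ 6 * E6K (u₀ ^ d))) ^ 2 =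
      (d : K) ^ 12 * (E4K (u₀ ^ d) ^ 3 - E6K (u₀ ^ d) ^ 2) := by ring
  rw [e', mul_pow, ← pow_mul, ← mul_assoc, mul_comm 1728 ((d : K) ^ (4 * 3)), mul_assoc,
    mul_div_mul_left _ _ (pow_ne_zero _ hd0)]

end Mixed

end Fermat.Agent.MS.TATE.VeluMix4
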