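/-
Programme MS (S12), chapter TATE (helper4): **Vélu's quotient of the Tate curve by a cyclic subgroup,
at an arbitrary level `N`** (prime to `6`, `‖N‖ = 1`).  For the normalised generator
`s = (a', δ) ∈ (ZMod N)²`, `δ e = N`, with `ζ^(a' e)` a primitive `d`-th root of unity
(so `s` has exact order `M = d e`, `⟨s⟩ ∩ μ = μ_d`), and `u₀ = ζ^a' q'^δ`:

  `veluJ (tateCurve q) (xsOf (tP D s) (d e)) = jK (u₀ ^ d)`,   `(u₀ ^ d) ^ e = q ^ d`   (`veluJ_cyclic`).
-/
import Mathlib
import Fermat.Agent.MS.TATE.ParamN3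
import Fermat.Agent.MS.TATE.VeluMix4

set_option autoImplicit false
set_option linter.unusedSectionVars false
set_option linter.unusedVariables false

namespace Fermat.Agent.MS.TATE.LTN4

open Fermat.Agent.MZ.MOD
open TateFormal4 PSEval4 TateEval4 TateCurve4 TateSym4 TateNorm4 TateVelu4 VeluDef4 LTTransport5
  RedType5
open TorsN3 InjN3 HomN3 ParamN3 VeluMix4 Distrib4
open WeierstrassCurve WeierstrassCurve.Affine

variable {K : Type*} [NormedField K] [IsUltrametricDist K] [CompleteSpace K] [CharZero K]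
  [DecidableEq K]
variable {N : ℕ} [hN : NeZero N] (D : TorsDataN K N)

section Cyclic

variable (a' : ZMod N) (δ e d : ℕ) (hδe : δ * e = N) (hd : 0 < d)
  (hζd : IsPrimitiveRoot (D.ζ ^ (a'.val * e)) d)

/-- the normalised generator `(a', δ)`. -/
def sN : ZMod N × ZMod N := (a', (δ : ZMod N))

/-- its parameter, with the representative `δ ∈ (0, N]` of the second coordinate. -/
noncomputable def u0 : K := D.ζ ^ a'.val * D.q' ^ δ

include hδe in
theorem δ_pos : 0 < δ := by
  rcases Nat.eq_zero_or_pos δ with h | h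
  · rw [h, zero_mul] at hδe
    exact absurd hδe.symm hN.out
  · exact h

include hδe in
theorem e_pos : 0 < e := by
  rcases Nat.eq_zero_or_pos e with h | h
  · rw [h, mul_zero] at hδe
    exact absurd hδe.symm hN.out
  · exact h

theorem u0_ne_zero : u0 D a' δ ≠ 0 :=
  mul_ne_zero (pow_ne_zero _ (ζ_ne_zero D)) (pow_ne_zero _ (q'_ne_zero D))

include hδe in
theorem u0_pow_e : u0 D a' δ ^ e = D.ζ ^ (a'.val * e) * D.q := by
  rw [u0, mul_pow, ← pow_mul, ← pow_mul, hδe, D.hq']

include hδe hζd in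
theorem u0_hW : (u0 D a' δ ^ d) ^ e = D.q ^ d := by
  rw [← pow_mul, mul_comm d e, pow_mul, u0_pow_e D a' δ e hδe, mul_pow, hζd.pow_eq_one, one_mul]

include hδe in
/-- the parameters of the multiples of the normalised generator. -/
theorem uT_nsmul_sN (l i : ℕ) (hi : i < e) :
    uT D ((i + e * l) • sN a' δ) = (D.ζ ^ (a'.val * e)) ^ l * u0 D a' δ ^ i := by
  rw [sN, nsmul_pair, uT_mk,
    zeta_pow_val D (((i + e * l : ℕ) : ZMod N) * a') ((i + e * l) * a'.val) (by
      rw [Nat.cast_mul, natCast_val])]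
  have e2 : (((i + e * l : ℕ) : ZMod N) * (δ : ZMod N)).val = i * δ := by
    rw [← Nat.cast_mul, ZMod.val_natCast]
    have h1 : (i + e * l) * δ = i * δ + N * l := by
      rw [← hδe]
      ring
    rw [h1, Nat.add_mul_mod_self_left]
    refine Nat.mod_eq_of_lt ?_
    calc i * δ < e * δ := Nat.mul_lt_mul_of_pos_right hi (δ_pos δ e hδe)
      _ = N := by rw [mul_comm, hδe]
  have e3 : (i + e * l) * a'.val = a'.val * e * l + a'.val * i := by ring
  rw [e2, u0, mul_pow, ← pow_mul, ← pow_mul, ← pow_mul, ← mul_assoc, ← pow_add, e3, mul_comm δ i]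

include hδe hd hζd in
theorem de_nsmul_sN : (d * e) • sN a' δ = 0 := by
  have h1 : (D.ζ ^ (a'.val * e)) ^ d = 1 := hζd.pow_eq_one
  rw [← pow_mul] at h1
  have h2 : N ∣ a'.val * e * d := (D.hζ.pow_eq_one_iff_dvd _).1 h1
  have h3 : ((a'.val * e * d : ℕ) : ZMod N) = 0 := (ZMod.natCast_eq_zero_iff _ _).2 h2
  rw [sN, nsmul_pair]
  refine Prod.ext ?_ ?_
  · show ((d * e : ℕ) : ZMod N) * a' = 0
    have : ((d * e : ℕ) : ZMod N) * a' = ((a'.val * e * d : ℕ) : ZMod N) := by
      push_cast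
      rw [natCast_val]
      ring
    rw [this, h3]
  · show ((d * e : ℕ) : ZMod N) * (δ : ZMod N) = 0
    have : ((d * e : ℕ) : ZMod N) * (δ : ZMod N) = ((d * N : ℕ) : ZMod N) := by
      rw [← hδe]
      push_cast
      ring
    rw [this, Nat.cast_mul, ZMod.natCast_self, mul_zero]

include hδe hd hζd in
theorem nsmul_sN_ne_zero (k : ℕ) (hk : k ∈ Finset.Ico 1 (d * e)) : k • sN a' δ ≠ 0 := by
  rw [Finset.mem_Ico] at hk
  have he := e_pos δ e hδe
  intro h0
  have hmem : (k / e, k % e) ∈ Idx d e := by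
    rw [mem_Idx]
    refine ⟨?_, (Nat.div_lt_iff_lt_mul he).2 hk.2, Nat.mod_lt k he⟩
    intro h
    have h1 : k / e = 0 := congrArg Prod.fst h
    have h2 : k % e = 0 := congrArg Prod.snd h
    have := Nat.mod_add_div k e
    rw [h1, h2] at this
    omega
  have hpar := (par_facts (D.ζ ^ (a'.val * e)) d e hd he hζd D.q (u0 D a' δ) D.hq1
    (u0_ne_zero D a' δ) (u0_hW D a' δ e d hδe hζd) _ hmem).2.1
  have hk' : k = k % e + e * (k / e) := (Nat.mod_add_div k e).symm
  have := uT_nsmul_sN D a' δ e hδe (k / e) (k % e) (Nat.mod_lt k he)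
  rw [← hk', h0, uT_zero] at this
  exact hpar this.symm

variable (h6 : Nat.Coprime N 6) (hNK : ‖(N : K)‖ = 1)

include hδe hd hζd in
theorem d_dvd : d ∣ N := by
  refine hζd.dvd_of_pow_eq_one N ?_
  rw [← pow_mul, mul_comm, pow_mul, D.hζ.pow_eq_one, one_pow]

include hδe hd hζd h6 in
theorem odd_de : Odd (d * e) := by
  have hoddN : Odd N := odd_of_coprime_six h6
  have h1 : Odd d := Odd.of_dvd_nat hoddN (d_dvd D a' δ e d hδe hd hζd)
  have h2 : Odd e := Odd.of_dvd_nat hoddN ⟨δ, by rw [mul_comm, hδe]⟩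
  exact h1.mul h2

include hδe hd hζd h6 hNK in
/-- the standard enumeration of `⟨s⟩ ∖ 0` is two-to-one onto the `x`-coordinates. -/
theorem twoToOne_std :
    TwoToOne ((Finset.Ico 1 (d * e)).image (fun k => XK (uT D (k • sN a' δ)) D.q))
      (Finset.Ico 1 (d * e)) (fun k => XK (uT D (k • sN a' δ)) D.q) := by
  have hoddM := odd_de D a' δ e d hδe hd hζd h6
  have hne := nsmul_sN_ne_zero D a' δ e d hδe hd hζd
  have hM0 := de_nsmul_sN D a' δ e d hδe hd hζd
  convert twoToOne_of_inj (d * e) hoddM (fun k => XK (uT D (k • sN a' δ)) D.q) ?_ ?_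
  · -- symmetry
    intro k hk
    have hk' := Finset.mem_Ico.1 hk
    show XK (uT D ((d * e - k) • sN a' δ)) D.q = XK (uT D (k • sN a' δ)) D.q
    have e1 : (d * e - k) • sN a' δ = -(k • sN a' δ) := by
      rw [eq_neg_iff_add_eq_zero, ← add_nsmul, Nat.sub_add_cancel hk'.2.le, hM0]
    rw [e1, XK_uT_neg D _ (hne k hk)]
  · -- injectivity modulo `±`
    intro k hk l hl h
    have hk' := Finset.mem_Ico.1 hk
    have hl' := Finset.mem_Ico.1 hl
    rcases XK_inj D (odd_of_coprime_six h6) hNK (k • sN a' δ) (l • sN a' δ) (hne k hk) (hne l hl) h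
      with h1 | h1
    · left
      rcases Nat.lt_trichotomy l k with hlt | heq | hgt
      · exfalso
        have h2 : (k - l) • sN a' δ = 0 := by
          have : (k - l) • sN a' δ + l • sN a' δ = l • sN a' δ + 0 := by
            rw [← add_nsmul, Nat.sub_add_cancel hlt.le, add_zero, h1]
          rw [add_comm] at this
          exact add_left_cancel this
        exact hne (k - l) (Finset.mem_Ico.2 ⟨by omega, by omega⟩) h2
      · exact heq
      · exfalso
        have h2 : (l - k) • sN a' δ = 0 := by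
          have : (l - k) • sN a' δ + k • sN a' δ = k • sN a' δ + 0 := by
            rw [← add_nsmul, Nat.sub_add_cancel hgt.le, add_zero, h1]
          rw [add_comm] at this
          exact add_left_cancel this
        exact hne (l - k) (Finset.mem_Ico.2 ⟨by omega, by omega⟩) h2
    · right
      have h2 : (l + k) • sN a' δ = 0 := by rw [add_nsmul, h1, neg_add_cancel]
      rcases Nat.lt_trichotomy (l + k) (d * e) with hlt | heq | hgt
      · exfalso
        exact hne (l + k) (Finset.mem_Ico.2 ⟨by omega, hlt⟩) h2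
      · omega
      · exfalso
        have h3 : (l + k - d * e) • sN a' δ = 0 := by
          have : (l + k - d * e) • sN a' δ + (d * e) • sN a' δ = 0 := by
            rw [← add_nsmul, Nat.sub_add_cancel hgt.le, h2]
          rwa [hM0, add_zero] at this
        exact hne (l + k - d * e) (Finset.mem_Ico.2 ⟨by omega, by omega⟩) h3

include hδe hd hζd h6 hNK in
/-- the same, enumerated by `Idx d e`. -/
theorem twoToOne_idx :
    TwoToOneG ((Finset.Ico 1 (d * e)).image (fun k => XK (uT D (k • sN a' δ)) D.q)) (Idx d e)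
      (fun x => XK (par (D.ζ ^ (a'.val * e)) (u0 D a' δ) x) D.q) := by
  have he := e_pos δ e hδe
  intro g
  rw [twoToOne_std D a' δ e d hδe hd hζd h6 hNK g]
  refine Finset.sum_bij' (fun k _ => (k / e, k % e)) (fun x _ => x.2 + e * x.1) ?_ ?_ ?_ ?_ ?_
  · intro k hk
    rw [Finset.mem_Ico] at hk
    rw [mem_Idx]
    refine ⟨?_, (Nat.div_lt_iff_lt_mul he).2 hk.2, Nat.mod_lt k he⟩
    intro h
    have h1 : k / e = 0 := congrArg Prod.fst h
    have h2 : k % e = 0 := congrArg Prod.snd h
    have := Nat.mod_add_div k e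
    rw [h1, h2] at this
    omega
  · intro x hx
    obtain ⟨hne, hl, hi⟩ := mem_Idx.1 hx
    obtain ⟨l, i⟩ := x
    simp only at hl hi ⊢
    rw [Finset.mem_Ico]
    constructor
    · rcases Nat.eq_zero_or_pos i with rfl | hi0
      · have hl0 : l ≠ 0 := fun h => hne (by rw [h])
        have : 1 ≤ e * l := Nat.mul_pos he (Nat.pos_of_ne_zero hl0)
        omega
      · omega
    · calc i + e * l < e + e * l := by omega
        _ = e * (l + 1) := by ring
        _ ≤ e * d := Nat.mul_le_mul_left e hl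
        _ = d * e := mul_comm e d
  · intro k _
    exact Nat.mod_add_div k e
  · intro x hx
    obtain ⟨hne, hl, hi⟩ := mem_Idx.1 hx
    obtain ⟨l, i⟩ := x
    simp only at hi ⊢
    rw [Nat.add_mul_div_left _ _ he, Nat.div_eq_of_lt hi, zero_add, Nat.add_mul_mod_self_left,
      Nat.mod_eq_of_lt hi]
  · intro k _
    have hk' : k = k % e + e * (k / e) := (Nat.mod_add_div k e).symm
    have := uT_nsmul_sN D a' δ e hδe (k / e) (k % e) (Nat.mod_lt k he)
    rw [← hk'] at this
    simp only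
    rw [this]
    rfl

include hδe hd hζd h6 hNK in
theorem xsOf_tP_sN :
    xsOf (tP D (sN a' δ)) (d * e) =
      (Finset.Ico 1 (d * e)).image (fun k => XK (uT D (k • sN a' δ)) D.q) := by
  unfold xsOf
  refine Finset.image_congr ?_
  intro k hk
  show xOf (k • tP D (sN a' δ)) = XK (uT D (k • sN a' δ)) D.q
  rw [tP_nsmul D h6 hNK, xOf_tP D _ (nsmul_sN_ne_zero D a' δ e d hδe hd hζd k
    (Finset.mem_coe.1 hk))]

include hδe hd hζd h6 hNK in
/-- **Vélu's `j` for the cyclic subgroup generated by `tP D (a', δ)`.** -/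
theorem veluJ_cyclic :
    veluJ (tateCurve D.q) (xsOf (tP D (sN a' δ)) (d * e)) = jK (u0 D a' δ ^ d) := by
  rw [xsOf_tP_sN D a' δ e d hδe hd hζd h6 hNK]
  exact veluJ_mixed (D.ζ ^ (a'.val * e)) d e hd (e_pos δ e hδe) hζd D.q (u0 D a' δ) D.hq1
    (u0_ne_zero D a' δ) (u0_hW D a' δ e d hδe hζd) _ (twoToOne_idx D a' δ e d hδe hd hζd h6 hNK)

include hδe hd hζd h6 hNK in
/-- the generator has exact order `d e`. -/
theorem addOrderOf_tP_sN : addOrderOf (tP D (sN a' δ)) = d * e := by
  have he := e_pos δ e hδe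
  have hM : 0 < d * e := Nat.mul_pos hd he
  refine (addOrderOf_eq_iff hM).2 ⟨?_, fun m hm hm0 => ?_⟩
  · rw [tP_nsmul D h6 hNK, de_nsmul_sN D a' δ e d hδe hd hζd, tP_zero]
  · rw [tP_nsmul D h6 hNK]
    exact tP_ne_zero D _ (nsmul_sN_ne_zero D a' δ e d hδe hd hζd m
      (Finset.mem_Ico.2 ⟨hm0, hm⟩))

end Cyclic

end Fermat.Agent.MS.TATE.LTN4
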