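/-
Programme MS (S12), chapter TATE (helper4): **the local Tate–Vélu theorem for the pair
`(E / ⟨pQ⟩, E / ⟨Q⟩)`, `Q` of exact order `p ^ (k+1)`.**

On the Tate curve `E_q` over a complete separably closed ultrametric field with `‖p‖ = 1`, `p > 3`:
there are `W₁ W₂` with `0 < ‖W₁‖ < 1`,

  `veluJ E_q ⟨pQ⟩ = jK W₁`,   `veluJ E_q ⟨Q⟩ = jK W₂`,

and either `W₂ = W₁ ^ p` and `Q` does not reduce to the node (`Q` lies in the canonical subgroup
`μ_{p^(k+1)}`), or `W₂ ^ p = W₁` and `Q` reduces to the node (`tate_pair`).  The statement is then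
transported to every integral Weierstrass model with `‖c₄‖ = 1`, `‖Δ‖ < 1` (`ltPairStatement`).
-/
import Mathlib
import Fermat.Agent.MS.TATE.LTN4
import Fermat.Agent.MZ.MOD.TateLTFinal4

set_option autoImplicit false
set_option linter.unusedSectionVars false
set_option linter.unusedVariables false

namespace Fermat.Agent.MS.TATE.LTPk4

open Fermat.Agent.MZ.MOD
open TateFormal4 PSEval4 TateEval4 TateCurve4 TateSym4 TateNorm4 TateVelu4 VeluDef4 LTTransport5
  RedType5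
open TorsN3 InjN3 HomN3 ParamN3 VeluMix4 Distrib4 LTN4
open WeierstrassCurve WeierstrassCurve.Affine
open Fermat.Agent.S05.Transport

/-! ### change of generator -/

section Gen

variable {F : Type*} [Field F] [DecidableEq F] {W : WeierstrassCurve F}

theorem xsOf_subset_of_nsmul (Q Q' : W.toAffine.Point) (M m' : ℕ) (hQ : addOrderOf Q = M)
    (hQ' : addOrderOf Q' = M) (hM : 0 < M) (h2 : Q = m' • Q') : xsOf Q M ⊆ xsOf Q' M := by
  intro x hx
  rw [xsOf, Finset.mem_image] at hx ⊢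
  obtain ⟨k, hk, rfl⟩ := hx
  rw [Finset.mem_Ico] at hk
  have hkQ : k • Q = ((k * m') % M) • Q' := by
    rw [← hQ', mod_addOrderOf_nsmul, mul_nsmul', ← h2]
  refine ⟨(k * m') % M, ?_, ?_⟩
  · rw [Finset.mem_Ico]
    refine ⟨?_, Nat.mod_lt _ hM⟩
    by_contra h0
    have h0' : (k * m') % M = 0 := by omega
    rw [h0', zero_nsmul] at hkQ
    have hdvd : addOrderOf Q ∣ k := addOrderOf_dvd_of_nsmul_eq_zero hkQ
    rw [hQ] at hdvd
    have := Nat.le_of_dvd (by omega) hdvd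
    omega
  · show xOf (((k * m') % M) • Q') = xOf (k • Q)
    rw [hkQ]

theorem addOrderOf_eq_of_nsmul (Q Q' : W.toAffine.Point) (m m' : ℕ) (h1 : Q' = m • Q)
    (h2 : Q = m' • Q') : addOrderOf Q' = addOrderOf Q := by
  refine Nat.dvd_antisymm ?_ ?_
  · rw [h1]
    exact addOrderOf_smul_dvd m
  · have h3 : addOrderOf (m' • Q') ∣ addOrderOf Q' := addOrderOf_smul_dvd m'
    rwa [← h2] at h3

theorem xsOf_eq_of_nsmul (Q Q' : W.toAffine.Point) (M m m' : ℕ) (hQ : addOrderOf Q = M)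
    (hM : 0 < M) (h1 : Q' = m • Q) (h2 : Q = m' • Q') : xsOf Q M = xsOf Q' M := by
  have hQ' : addOrderOf Q' = M := by rw [addOrderOf_eq_of_nsmul Q Q' m m' h1 h2, hQ]
  exact Finset.Subset.antisymm (xsOf_subset_of_nsmul Q Q' M m' hQ hQ' hM h2)
    (xsOf_subset_of_nsmul Q' Q M m hQ' hQ hM h1)

end Gen

/-! ### the Tate curve -/

section Tate

variable {K : Type*} [NormedField K] [IsUltrametricDist K] [CompleteSpace K] [CharZero K]
  [DecidableEq K]
variable {p : ℕ} [hp : Fact p.Prime] (k : ℕ)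
variable {N : ℕ} [hN : NeZero N] (D : TorsDataN K N) (hNp : N = p ^ (k + 1))

include hNp in
theorem isPrimitiveRoot_aux (a' : ZMod N) (j : ℕ) (hj : j ≤ k + 1)
    (ha : Nat.Coprime a'.val (p ^ j)) :
    IsPrimitiveRoot (D.ζ ^ (a'.val * p ^ (k + 1 - j))) (p ^ j) := by
  have h1 : IsPrimitiveRoot (D.ζ ^ (p ^ (k + 1 - j))) (p ^ j) :=
    D.hζ.pow (n_pos (n := N)) (by rw [hNp, ← pow_add]; congr 1; omega)
  have h2 := h1.pow_of_coprime a'.val ha
  rwa [← pow_mul, mul_comm] at h2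

variable (h6 : Nat.Coprime N 6) (hNK : ‖(N : K)‖ = 1)

include hNp h6 hNK in
/-- the generator `(a', p^j)`, `j ≤ k`: zero type. -/
theorem veluJ_zeroType (a' : ZMod N) (j : ℕ) (hj : j ≤ k) (ha : Nat.Coprime a'.val (p ^ j)) :
    veluJ (tateCurve D.q) (xsOf (tP D (sN a' (p ^ j))) (p ^ (k + 1))) =
        jK (u0 D a' (p ^ j) ^ p ^ j) ∧
      veluJ (tateCurve D.q) (xsOf (p • tP D (sN a' (p ^ j))) (p ^ k)) =
        jK ((u0 D a' (p ^ j) ^ p ^ j) ^ p) := by
  have hδe : p ^ j * p ^ (k + 1 - j) = N := by rw [hNp, ← pow_add]; congr 1; omega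
  have hd : 0 < p ^ j := pow_pos hp.out.pos j
  have hζd := isPrimitiveRoot_aux k D hNp a' j (by omega) ha
  have h1 := veluJ_cyclic D a' (p ^ j) (p ^ (k + 1 - j)) (p ^ j) hδe hd hζd h6 hNK
  have hde : p ^ j * p ^ (k + 1 - j) = p ^ (k + 1) := by rw [← pow_add]; congr 1; omega
  rw [hde] at h1
  refine ⟨h1, ?_⟩
  have hs : p • sN a' (p ^ j) = sN ((p : ZMod N) * a') (p ^ (j + 1)) := by
    rw [sN, nsmul_pair, sN]
    refine Prod.ext rfl ?_
    show ((p : ℕ) : ZMod N) * ((p ^ j : ℕ) : ZMod N) = ((p ^ (j + 1) : ℕ) : ZMod N)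
    push_cast
    ring
  have hδe2 : p ^ (j + 1) * p ^ (k - j) = N := by rw [hNp, ← pow_add]; congr 1; omega
  have hval : D.ζ ^ ((p : ZMod N) * a').val = D.ζ ^ (p * a'.val) :=
    zeta_pow_val D ((p : ZMod N) * a') (p * a'.val) (by push_cast; rw [natCast_val])
  have hζd2 : IsPrimitiveRoot (D.ζ ^ (((p : ZMod N) * a').val * p ^ (k - j))) (p ^ j) := by
    have e1 : D.ζ ^ (((p : ZMod N) * a').val * p ^ (k - j)) = D.ζ ^ (a'.val * p ^ (k + 1 - j)) := by
      rw [pow_mul, hval, ← pow_mul]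
      congr 1
      have : k + 1 - j = (k - j) + 1 := by omega
      rw [this, pow_succ]
      ring
    rw [e1]
    exact hζd
  have h2 := veluJ_cyclic D ((p : ZMod N) * a') (p ^ (j + 1)) (p ^ (k - j)) (p ^ j) hδe2 hd hζd2 h6
    hNK
  have hde2 : p ^ j * p ^ (k - j) = p ^ k := by rw [← pow_add]; congr 1; omega
  have hu : u0 D ((p : ZMod N) * a') (p ^ (j + 1)) = u0 D a' (p ^ j) ^ p := by
    rw [u0, u0, mul_pow, ← pow_mul, ← pow_mul, hval, pow_succ, mul_comm p a'.val]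
  rw [hde2, ← hs, ← tP_nsmul D h6 hNK, hu, ← pow_mul, mul_comm p (p ^ j), pow_mul] at h2
  exact h2

include hNp h6 hNK in
/-- the generator `(a', 0)`, `p ∤ a'`: type infinity (canonical subgroup). -/
theorem veluJ_infType (a' : ZMod N) (ha : Nat.Coprime a'.val p) :
    veluJ (tateCurve D.q) (xsOf (tP D (a', 0)) (p ^ (k + 1))) = jK (D.q ^ p ^ (k + 1)) ∧
      veluJ (tateCurve D.q) (xsOf (p • tP D (a', 0)) (p ^ k)) = jK (D.q ^ p ^ k) := by
  have hN0 : ((N : ℕ) : ZMod N) = 0 := ZMod.natCast_self N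
  have hNpos := n_pos (n := N)
  have hs1 : ((a', 0) : ZMod N × ZMod N) = sN a' N := by rw [sN, hN0]
  have hζ1 : IsPrimitiveRoot (D.ζ ^ (a'.val * 1)) N := by
    rw [mul_one]
    refine D.hζ.pow_of_coprime a'.val ?_
    have h3 : Nat.Coprime a'.val (p ^ (k + 1)) := Nat.Coprime.pow_right _ ha
    rwa [← hNp] at h3
  have h1 := veluJ_cyclic D a' N 1 N (mul_one N) hNpos hζ1 h6 hNK
  have hu1 : u0 D a' N ^ N = D.q ^ N := by
    rw [u0, mul_pow, ← pow_mul, mul_comm a'.val N, pow_mul, D.hζ.pow_eq_one, one_pow, one_mul, D.hq']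
  rw [mul_one, hu1, ← hs1] at h1
  refine ⟨by rw [← hNp]; exact h1, ?_⟩
  have hs2 : p • ((a', 0) : ZMod N × ZMod N) = sN ((p : ZMod N) * a') N := by
    rw [nsmul_pair, sN, hN0, mul_zero]
  have hval : D.ζ ^ ((p : ZMod N) * a').val = D.ζ ^ (p * a'.val) :=
    zeta_pow_val D ((p : ZMod N) * a') (p * a'.val) (by push_cast; rw [natCast_val])
  have hζ2 : IsPrimitiveRoot (D.ζ ^ (((p : ZMod N) * a').val * 1)) (p ^ k) := by
    rw [mul_one, hval, pow_mul]
    have h3 : IsPrimitiveRoot (D.ζ ^ p) (p ^ k) :=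
      D.hζ.pow hNpos (by rw [hNp, pow_succ, mul_comm])
    exact h3.pow_of_coprime a'.val (Nat.Coprime.pow_right _ ha)
  have h2 := veluJ_cyclic D ((p : ZMod N) * a') N 1 (p ^ k) (mul_one N) (pow_pos hp.out.pos k) hζ2
    h6 hNK
  have hu2 : u0 D ((p : ZMod N) * a') N ^ p ^ k = D.q ^ p ^ k := by
    have := hζ2.pow_eq_one
    rw [mul_one] at this
    rw [u0, mul_pow, this, one_mul, D.hq']
  rw [mul_one, hu2, ← hs2, ← tP_nsmul D h6 hNK] at h2
  exact h2

include hNp h6 hNK in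
/-- a generator of exact order `p^(k+1)` has a coordinate prime to `p`. -/
theorem not_dvd_of_order (a b : ZMod N) (hQ : addOrderOf (tP D (a, b)) = N) :
    ¬ (p ∣ a.val ∧ p ∣ b.val) := by
  rintro ⟨⟨a₁, ha⟩, ⟨b₁, hb⟩⟩
  have h0 : p ^ k • ((a, b) : ZMod N × ZMod N) = 0 := by
    rw [nsmul_pair]
    have e1 : ∀ c : ZMod N, ∀ c₁ : ℕ, c.val = p * c₁ → ((p ^ k : ℕ) : ZMod N) * c = 0 := by
      intro c c₁ hc
      rw [← natCast_val c, hc, ← Nat.cast_mul, ← mul_assoc, ← pow_succ, ← hNp, Nat.cast_mul,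
        ZMod.natCast_self, zero_mul]
    rw [e1 a a₁ ha, e1 b b₁ hb]
    rfl
  have h1 : p ^ k • tP D (a, b) = 0 := by rw [tP_nsmul D h6 hNK, h0, tP_zero]
  have h2 := addOrderOf_dvd_of_nsmul_eq_zero h1
  rw [hQ] at h2
  have h3 := Nat.le_of_dvd (pow_pos hp.out.pos k) h2
  have h4 : p ^ k < p ^ (k + 1) := Nat.pow_lt_pow_right hp.out.one_lt (by omega)
  omega

include hNp h6 hNK in
/-- **the local Tate–Vélu theorem for the pair `(⟨pQ⟩, ⟨Q⟩)` on the Tate curve.** -/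
theorem tate_pair (Q : (tateCurve D.q).toAffine.Point) (hQ : addOrderOf Q = N) :
    ∃ W₁ W₂ : K, W₁ ≠ 0 ∧ ‖W₁‖ < 1 ∧
      veluJ (tateCurve D.q) (xsOf (p • Q) (p ^ k)) = jK W₁ ∧
      veluJ (tateCurve D.q) (xsOf Q (p ^ (k + 1))) = jK W₂ ∧
      ((W₂ = W₁ ^ p ∧ ¬ RedSingPt (tateCurve D.q) Q) ∨
        (W₂ ^ p = W₁ ∧ RedSingPt (tateCurve D.q) Q)) := by
  have hp1 := hp.out.one_lt
  have hppos := hp.out.pos
  have hNpos := n_pos (n := N)
  have hN1 : 1 < N := by
    rw [hNp]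
    exact Nat.one_lt_pow (by omega) hp1
  obtain ⟨s, rfl⟩ := exists_tP_of_torsion D h6 hNK Q (by
    have := addOrderOf_nsmul_eq_zero Q
    rwa [hQ] at this)
  have hs0 : s ≠ 0 := by
    rintro rfl
    rw [tP_zero, addOrderOf_zero] at hQ
    omega
  obtain ⟨a, b⟩ := s
  have hnd := not_dvd_of_order k D hNp h6 hNK a b hQ
  have hred := redSingPt_tP_iff D hNK (a, b) hs0
  by_cases hb : b = 0
  · -- canonical case
    subst hb
    have ha : Nat.Coprime a.val p := by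
      rw [Nat.coprime_comm, hp.out.coprime_iff_not_dvd]
      intro h
      exact hnd ⟨h, by rw [ZMod.val_zero]; exact dvd_zero p⟩
    obtain ⟨h1, h2⟩ := veluJ_infType k D hNp h6 hNK a ha
    refine ⟨D.q ^ p ^ k, D.q ^ p ^ (k + 1), pow_ne_zero _ D.hq0, ?_, h2, h1, Or.inl ⟨?_, ?_⟩⟩
    · rw [norm_pow]
      exact pow_lt_one₀ (norm_nonneg _) D.hq1 (pow_pos hppos k).ne'
    · rw [← pow_mul, pow_succ]
    · rw [hred]
      exact fun h => h rfl
  · -- zero type
    have hbv : b.val ≠ 0 := by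
      rw [Ne, ZMod.val_eq_zero]
      exact hb
    obtain ⟨j, m, hm, hbm⟩ := Nat.exists_eq_pow_mul_and_not_dvd hbv p (by omega)
    have hblt : b.val < p ^ (k + 1) := by
      have := ZMod.val_lt b
      omega
    have hm0 : 0 < m := by
      rcases Nat.eq_zero_or_pos m with h | h
      · rw [h, mul_zero] at hbm
        exact absurd hbm hbv
      · exact h
    have hj : j ≤ k := by
      by_contra hjk
      have h1 : p ^ (k + 1) ≤ p ^ j := Nat.pow_le_pow_right hppos (by omega)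
      have h2 : p ^ j ≤ p ^ j * m := Nat.le_mul_of_pos_right _ hm0
      omega
    have hmN : Nat.Coprime m N := by
      have h3 : Nat.Coprime m (p ^ (k + 1)) :=
        Nat.Coprime.pow_right _ ((Nat.coprime_comm.1 ((hp.out.coprime_iff_not_dvd).2 hm)))
      rwa [← hNp] at h3
    obtain ⟨m', -, hm'⟩ := Nat.exists_mul_mod_eq_one_of_coprime hmN hN1
    have hmm' : ((m : ZMod N)) * (m' : ZMod N) = 1 := by
      rw [← Nat.cast_mul, ← ZMod.natCast_mod, hm', Nat.cast_one]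
    -- the normalised generator
    set a' : ZMod N := (m' : ZMod N) * a with ha'
    have hs' : m' • ((a, b) : ZMod N × ZMod N) = sN a' (p ^ j) := by
      rw [nsmul_pair, sN]
      refine Prod.ext rfl ?_
      show (m' : ZMod N) * b = ((p ^ j : ℕ) : ZMod N)
      rw [← natCast_val b, hbm, Nat.cast_mul, mul_comm, mul_assoc, hmm', mul_one]
    have hs'' : m • sN a' (p ^ j) = ((a, b) : ZMod N × ZMod N) := by
      rw [← hs', ← mul_nsmul', nsmul_pair, Nat.cast_mul, hmm', one_mul, one_mul]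
    set Q' := tP D (sN a' (p ^ j)) with hQ'def
    have hQ'1 : Q' = m' • tP D (a, b) := by rw [tP_nsmul D h6 hNK, hs']
    have hQ'2 : tP D (a, b) = m • Q' := by rw [hQ'def, tP_nsmul D h6 hNK, hs'']
    have hQ'ord : addOrderOf Q' = N := by
      rw [addOrderOf_eq_of_nsmul _ _ m' m hQ'1 hQ'2, hQ]
    -- coprimality of the first coordinate
    have ha'c : Nat.Coprime a'.val (p ^ j) := by
      rcases Nat.eq_zero_or_pos j with hj0 | hj0
      · rw [hj0, pow_zero]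
        exact Nat.coprime_one_right _
      · refine Nat.Coprime.pow_right _ ?_
        rw [Nat.coprime_comm, hp.out.coprime_iff_not_dvd]
        intro h
        refine not_dvd_of_order k D hNp h6 hNK a' ((p ^ j : ℕ) : ZMod N) hQ'ord ⟨h, ?_⟩
        have hlt : p ^ j < N := by
          rw [hNp]
          exact Nat.pow_lt_pow_right hp1 (by omega)
        rw [val_natCast_of_lt hlt]
        exact dvd_pow_self p hj0.ne'
    obtain ⟨h1, h2⟩ := veluJ_zeroType k D hNp h6 hNK a' j hj ha'c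
    -- change of generator
    have e1 : xsOf (tP D (a, b)) (p ^ (k + 1)) = xsOf Q' (p ^ (k + 1)) := by
      rw [← hNp]
      exact xsOf_eq_of_nsmul _ _ N m' m hQ hNpos hQ'1 hQ'2
    have hordp : addOrderOf (p • tP D (a, b)) = p ^ k := by
      rw [addOrderOf_nsmul' _ hppos.ne', hQ]
      have : Nat.gcd N p = p := by
        rw [hNp]
        exact Nat.gcd_eq_right (dvd_pow_self p (by omega))
      rw [this, hNp, pow_succ, Nat.mul_div_cancel _ hppos]
    have e2 : xsOf (p • tP D (a, b)) (p ^ k) = xsOf (p • Q') (p ^ k) := by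
      refine xsOf_eq_of_nsmul _ _ (p ^ k) m' m hordp (pow_pos hppos k) ?_ ?_
      · rw [hQ'1, smul_comm]
      · rw [← smul_comm, ← hQ'2]
    have hu0 : u0 D a' (p ^ j) ≠ 0 := u0_ne_zero D a' (p ^ j)
    have hu1 : ‖u0 D a' (p ^ j)‖ < 1 := by
      rw [u0, norm_mul, norm_pow, norm_pow, norm_ζ, one_pow, one_mul]
      exact pow_lt_one₀ (norm_nonneg _) (norm_q'_lt_one D) (pow_pos hppos j).ne'
    refine ⟨(u0 D a' (p ^ j) ^ p ^ j) ^ p, u0 D a' (p ^ j) ^ p ^ j,
      pow_ne_zero _ (pow_ne_zero _ hu0), ?_, ?_, ?_, Or.inr ⟨rfl, ?_⟩⟩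
    · rw [← pow_mul, norm_pow]
      exact pow_lt_one₀ (norm_nonneg _) hu1 (Nat.mul_pos (pow_pos hppos j) hppos).ne'
    · rw [e2]
      exact h2
    · rw [e1]
      exact h1
    · rw [hred]
      exact hb

end Tate

/-! ### transport to an arbitrary integral model -/

section Transport

variable {K : Type*} [NormedField K] [IsUltrametricDist K] [CompleteSpace K] [CharZero K]
  [DecidableEq K]

/-- **the local Tate–Vélu statement for pairs** `(W / ⟨pQ⟩, W / ⟨Q⟩)`, `Q` of exact order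
`p^(k+1)`, on integral models with multiplicative reduction. -/
def LTPairStatement (jT : K → K) (p k : ℕ) : Prop :=
  ∀ (W : WeierstrassCurve K), IsIntegralW W → ‖W.c₄‖ = 1 → W.Δ ≠ 0 → ‖W.Δ‖ < 1 →
    ∀ Q : W.toAffine.Point, addOrderOf Q = p ^ (k + 1) →
      ∃ W₁ W₂ : K, W₁ ≠ 0 ∧ ‖W₁‖ < 1 ∧ veluJ W (xsOf (p • Q) (p ^ k)) = jT W₁ ∧
        veluJ W (xsOf Q (p ^ (k + 1))) = jT W₂ ∧
        ((W₂ = W₁ ^ p ∧ ¬ RedSingPt W Q) ∨ (W₂ ^ p = W₁ ∧ RedSingPt W Q))

variable {p : ℕ} [hp : Fact p.Prime]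

theorem addOrderOf_p_nsmul {G : Type*} [AddGroup G] (Q : G) (k : ℕ)
    (hQ : addOrderOf Q = p ^ (k + 1)) : addOrderOf (p • Q) = p ^ k := by
  have hppos := hp.out.pos
  rw [addOrderOf_nsmul' _ hppos.ne', hQ]
  have : Nat.gcd (p ^ (k + 1)) p = p := Nat.gcd_eq_right (dvd_pow_self p (by omega))
  rw [this, pow_succ, Nat.mul_div_cancel _ hppos]

/-- **the pair statement holds** over a complete separably closed field with `‖p‖ = 1`, `p > 3`. -/
theorem ltPairStatement [IsSepClosed K] (hp3 : 3 < p) (hpK : ‖(p : K)‖ = 1) (k : ℕ) :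
    LTPairStatement (K := K) jK p k := by
  intro W hW h4 hΔ0 hΔ Q hQ
  have hppos := hp.out.pos
  -- the Tate parameter
  have hj : 1 < ‖W.c₄ ^ 3 / W.Δ‖ := by
    rw [norm_div, norm_pow, h4, one_pow, one_div]
    exact (one_lt_inv₀ (norm_pos_iff.mpr hΔ0)).mpr hΔ
  obtain ⟨q, hq0, hq1, hjq⟩ := TateLTFinal4.hq_of_j _ hj
  have hTint := TateLT4.isIntegralW_tateCurve q hq1
  have hT4 := TateLT4.norm_c₄_tateCurve q hq1
  have hTΔ := TateLT4.Δ_tateCurve_ne_zero q hq0 hq1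
  have hTj := TateLT4.j_tateCurve' q hq1
  -- the change of variables
  have : W.IsElliptic := ⟨isUnit_iff_ne_zero.mpr hΔ0⟩
  have : (tateCurve q).IsElliptic := ⟨isUnit_iff_ne_zero.mpr hTΔ⟩
  have hjj : W.j = (tateCurve q).j := by rw [j_eq_div, j_eq_div, hTj, hjq]
  obtain ⟨C, hC⟩ := exists_variableChange_of_j_eq W (tateCurve q) hjj
  have h : tateCurve q = C • W := hC.symm
  have hTint' : IsIntegralW (C • W) := hC ▸ hTint
  have hT4' : ‖(C • W).c₄‖ = 1 := hC ▸ hT4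
  obtain ⟨hu, hv, hr, hs, ht⟩ := vc_integral hW hTint' h4 hT4'
  -- the torsion data at level `N = p^(k+1)`
  set N := p ^ (k + 1) with hNdef
  have hNpos : 0 < N := pow_pos hppos _
  have : NeZero N := ⟨hNpos.ne'⟩
  have hNK : ‖((N : ℕ) : K)‖ = 1 := by
    rw [hNdef, Nat.cast_pow, norm_pow, hpK, one_pow]
  have : NeZero ((N : ℕ) : K) := ⟨Nat.cast_ne_zero.2 hNpos.ne'⟩
  obtain ⟨q', hq'⟩ := IsSepClosed.exists_pow_nat_eq q N
  obtain ⟨ζ, hζ⟩ := HasEnoughRootsOfUnity.exists_primitiveRoot K N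
  let D : TorsDataN K N :=
    { q := q, q' := q', ζ := ζ, hq0 := hq0, hq1 := hq1, hq' := hq', hζ := hζ, hΔ := hTΔ }
  have h6 : Nat.Coprime N 6 := by
    refine Nat.Coprime.pow_left _ ?_
    rw [hp.out.coprime_iff_not_dvd]
    intro h6
    have := Nat.le_of_dvd (by norm_num) h6
    have h2 : p = 4 ∨ p = 5 ∨ p = 6 := by omega
    rcases h2 with rfl | rfl | rfl
    · exact absurd hp.out (by norm_num)
    · norm_num at h6
    · exact absurd hp.out (by norm_num)
  -- the point on the Tate curve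
  set Q' : (tateCurve q).toAffine.Point := (pointEquiv h).symm Q with hQ'def
  have hQQ' : pointEquiv h Q' = Q := (pointEquiv h).apply_symm_apply Q
  have hQ' : addOrderOf Q' = N := by
    rw [← hQ, ← hQQ']
    exact (AddEquiv.addOrderOf_eq (pointEquiv h) Q').symm
  obtain ⟨W₁, W₂, hW0, hW1, e1, e2, hcase⟩ := tate_pair k D rfl h6 hNK Q' hQ'
  have hpQ' : addOrderOf (p • Q') = p ^ k := addOrderOf_p_nsmul Q' k hQ'
  refine ⟨W₁, W₂, hW0, hW1, ?_, ?_, ?_⟩
  · rw [← e1, veluJ_pointEquiv W C h (p • Q') hpQ', map_nsmul, hQQ']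
  · rw [← e2, veluJ_pointEquiv W C h Q' hQ', hQQ']
  · have hred := redSingPt_pointEquiv W C h hu hv hr hs ht Q'
    rw [hQQ'] at hred
    rcases hcase with ⟨h1, h2⟩ | ⟨h1, h2⟩
    · exact Or.inl ⟨h1, fun h3 => h2 (hred.mp h3)⟩
    · exact Or.inr ⟨h1, hred.mpr h2⟩

end Transport

end Fermat.Agent.MS.TATE.LTPk4
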